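import Fermat.Agent.SS.Abs.Inj

/-!
# SS / abstract part : the main theorems

* `smul_eq_nsmul_of_isToric` (Z) : a compatible semilinear automorphism `g` acting on the
  `p ^ e`-th roots of unity of `k` by `ζ ↦ ζ ^ a` acts on the toric classes by `a`.
* `unipotent_of_torsion` : "inertia" acts unipotently on the `p ^ e`-torsion of `Pic⁰`.
-/

set_option autoImplicit false

open AlgebraicCurve

namespace Fermat.Agent.SS

open Fermat.Agent.RED Fermat.Agent.S24

section Aux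

variable {K F k Fb : Type*} [Field K] [Field F] [Algebra K F] [Field k] [Field Fb] [Algebra k Fb]

theorem pic0_mk_eq_mk_of_isPrincipal {D D' : Divisor.degZero (K := K) (F := F)}
    (h : ((D : Divisor K F) - (D' : Divisor K F)).IsPrincipal) : Pic0.mk D = Pic0.mk D' := by
  refine QuotientAddGroup.eq.2 ?_
  rw [AddSubgroup.mem_addSubgroupOf]
  have h1 : (((-D + D' : Divisor.degZero (K := K) (F := F))) : Divisor K F)
      = -((D : Divisor K F) - (D' : Divisor K F)) := by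
    push_cast
    abel
  rw [h1]
  exact (Divisor.principal (K := K) (F := F)).neg_mem h

theorem isPrincipal_of_pic0_mk_eq_zero {D : Divisor.degZero (K := K) (F := F)}
    (h : Pic0.mk D = 0) : (D : Divisor K F).IsPrincipal := by
  have h1 := (QuotientAddGroup.eq_zero_iff D).1 h
  exact AddSubgroup.mem_addSubgroupOf.1 h1

theorem pic0_mk_nsmul (m : ℕ) (D : Divisor.degZero (K := K) (F := F)) :
    Pic0.mk (m • D) = m • Pic0.mk D := rfl

theorem pic0_mk_sub (D D' : Divisor.degZero (K := K) (F := F)) :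
    Pic0.mk (D - D') = Pic0.mk D - Pic0.mk D' := rfl

/-- `g f / f` is a unit with constant reduction, if `g` induces the identity on the residue
field. -/
theorem RedData_smul_div (R : RedData K F k Fb) (g : SemilinearAut K F)
    (hmem : ∀ u : R.O, g • (u : F) ∈ R.O)
    (hred : ∀ u : R.O, R.red ⟨g • (u : F), hmem u⟩ = R.red u)
    (hunit : ∀ c : K, c ≠ 0 → algebraMap K F (SemilinearAut.baseAut g c * c⁻¹) ∈ R.O)
    {f : F} (hf : f ≠ 0) :
    ∃ (h : (g • f) * f⁻¹ ∈ R.O) (a : k), a ≠ 0 ∧ R.red ⟨_, h⟩ = algebraMap k Fb a := by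
  obtain ⟨c, hc, hcred⟩ := R.exists_scale f hf
  have hc0 : c ≠ 0 := by
    rintro rfl
    apply hcred
    have : (⟨algebraMap K F 0 * f, hc⟩ : R.O) = 0 := Subtype.ext (by simp)
    rw [this, map_zero]
  set u : R.O := ⟨algebraMap K F c * f, hc⟩ with hu
  set gc := SemilinearAut.baseAut g c with hgc
  have hgc0 : gc ≠ 0 := by
    rw [hgc, Ne, map_eq_zero_iff _ (SemilinearAut.baseAut g).injective]
    exact hc0
  -- the constants `d = c / g c` and `d' = g c / c`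
  have hd' : algebraMap K F (gc * c⁻¹) ∈ R.O := hunit c hc0
  have hd : algebraMap K F (c * gc⁻¹) ∈ R.O := by
    have := hunit c⁻¹ (inv_ne_zero hc0)
    rwa [map_inv₀, inv_inv, mul_comm] at this
  have hdd : (⟨_, hd⟩ : R.O) * ⟨_, hd'⟩ = 1 := by
    apply Subtype.ext
    show algebraMap K F (c * gc⁻¹) * algebraMap K F (gc * c⁻¹) = 1
    rw [← map_mul]
    have : c * gc⁻¹ * (gc * c⁻¹) = 1 := by field_simp
    rw [this, map_one]
  obtain ⟨a, ha⟩ := R.red_const _ hd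
  have ha0 : a ≠ 0 := by
    rintro rfl
    have := congrArg R.red hdd
    rw [map_mul, ha, map_zero, zero_mul, map_one] at this
    exact zero_ne_one this
  let E : R.O := ⟨g • (u : F), hmem u⟩ * ⟨(u : F)⁻¹, R.inv_mem_of_red_ne_zero hcred⟩ * ⟨_, hd⟩
  have hE : (E : F) = (g • f) * f⁻¹ := by
    show g • (algebraMap K F c * f) * (algebraMap K F c * f)⁻¹ * algebraMap K F (c * gc⁻¹) = _
    rw [smul_mul', SemilinearAut.smul_algebraMap, map_mul, map_inv₀]
    have h1 : algebraMap K F c ≠ 0 := by rwa [Ne, map_eq_zero]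
    have h2 : algebraMap K F gc ≠ 0 := by rwa [Ne, map_eq_zero]
    field_simp
    exact mul_comm _ _
  have hEred : R.red E = algebraMap k Fb a := by
    show R.red (_ * _ * _) = _
    rw [map_mul, map_mul, hred u, R.red_inv hcred, mul_inv_cancel₀ hcred, one_mul, ha]
  refine ⟨hE ▸ E.2, a, ha0, ?_⟩
  rw [← hEred]
  exact congrArg R.red (Subtype.ext hE.symm)

end Aux

variable {K F k Fb : Type*} [Field K] [Field F] [Algebra K F] [Field k] [Field Fb] [Algebra k Fb]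
  [IsAlgClosed K] [IsAlgClosed k] {x : F} {t : Fb}

variable {T : TwoRed K F k Fb} (𝒩 : NodalData T)

/-- [NORMALISE] a toric class has a representative with reduction `(1, 1)`. -/
theorem IsToric.exists_isOne (hx : IsSepParam K x) {m : ℕ} {y : Pic0 K F} (h : IsToric T m y) :
    ∃ (D : Divisor.degZero (K := K) (F := F)) (f : T.O), y = Pic0.mk D ∧
      IsOne T m (D : Divisor K F) f := by
  obtain ⟨D, f, a₁, a₂, rfl, hord, ha₁, ha₂, hred⟩ := h
  obtain ⟨u, hu₁, hu₂, hr₁, hr₂⟩ := T.joint_surj a₁⁻¹ a₂⁻¹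
  let U : T.O := ⟨u, hu₁, hu₂⟩
  have hU : T.red U = (a₁⁻¹, a₂⁻¹) := Prod.ext hr₁ hr₂
  have hu0 : u ≠ 0 := by
    rintro rfl
    have h0 : U = 0 := Subtype.ext rfl
    rw [h0, map_zero] at hU
    exact inv_ne_zero ha₁ (congrArg Prod.fst hU).symm
  have hf0 : (f : F) ≠ 0 := by
    intro h0
    have h1 : f = 0 := Subtype.ext h0
    rw [h1, map_zero] at hred
    exact pow_ne_zero m ha₁ (congrArg Prod.fst hred).symm
  have hdeg : Divisor.degree ((D : Divisor K F) + dv K u) = 0 := by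
    rw [map_add, hx.degree_dv, add_zero]
    exact D.2
  refine ⟨⟨(D : Divisor K F) + dv K u, hdeg⟩, f * U ^ m, ?_, hdeg, ?_, ?_⟩
  · apply pic0_mk_eq_mk_of_isPrincipal
    have : (D : Divisor K F) - ((D : Divisor K F) + dv K u) = - dv K u := by abel
    rw [this]
    exact (Divisor.principal (K := K) (F := F)).neg_mem (hx.isPrincipal_dv hu0)
  · intro v
    show (m : ℤ) * ((D : Divisor K F) + dv K u) v = v.ord ((f : F) * u ^ m)
    rw [Finsupp.add_apply, mul_add, hord, hx.dv_apply, v.ord_mul hf0 (pow_ne_zero _ hu0),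
      ← zpow_natCast, v.ord_zpow]
  · rw [map_mul, map_pow, hred, hU]
    apply Prod.ext
    · show a₁ ^ m * a₁⁻¹ ^ m = 1
      rw [← mul_pow, mul_inv_cancel₀ ha₁, one_pow]
    · show a₂ ^ m * a₂⁻¹ ^ m = 1
      rw [← mul_pow, mul_inv_cancel₀ ha₂, one_pow]

/-- the gluing datum of `i • D` -/
theorem W_nsmul (hx : IsSepParam K x) (hb : IsSepParam k t) {n : ℕ} (hn : 𝒩.IsLarge n) {m : ℕ}
    (hm : m ≠ 0) {D : Divisor K F} {f : T.O} (h : IsOne T m D f) {ζ : 𝒩.S → k}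
    (hζ : ∀ a b : ℕ, n ≤ a + b → (𝒩.W D a b : Set (Fb × Fb)) = 𝒩.M ζ a b) (i : ℕ) :
    ∀ a b : ℕ, n ≤ a + b → (𝒩.W (i • D) a b : Set (Fb × Fb)) = 𝒩.M (ζ ^ i) a b := by
  induction i with
  | zero =>
    obtain ⟨ζ₀, hζ₀, hW₀⟩ := 𝒩.exists_zeta hx hb hn hm (h.nsmul 0)
    have h1 : ζ₀ = ζ₀ * ζ₀ := by
      refine 𝒩.zeta_add hb hn hW₀ hW₀ ?_
      rw [zero_smul, add_zero]
      rw [zero_smul] at hW₀
      exact hW₀
    have h2 : ζ₀ = 1 := by
      funext s
      have h3 := congrFun h1 s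
      have h4 : ζ₀ s ≠ 0 := by
        intro h0
        have := hζ₀ s
        rw [h0, zero_pow hm] at this
        exact zero_ne_one this
      rw [Pi.mul_apply] at h3
      exact (mul_eq_left₀ h4).1 h3.symm
    rw [pow_zero, ← h2]
    exact hW₀
  | succ i ih =>
    obtain ⟨ζ₁, -, hW₁⟩ := 𝒩.exists_zeta hx hb hn hm (h.nsmul (i + 1))
    have h1 : ζ₁ = ζ ^ i * ζ := by
      refine 𝒩.zeta_add hb hn ih hζ ?_
      rw [← succ_nsmul]
      exact hW₁
    rw [pow_succ, ← h1]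
    exact hW₁

/-- [Z] **the key theorem**. -/
theorem smul_eq_nsmul_of_isToric (hx : IsSepParam K x) (hb : IsSepParam k t) {p : ℕ}
    (hp : p.Prime) (hpk : (p : k) ≠ 0) (e : ℕ) {g : SemilinearAut K F} {φ : SemilinearAut k Fb}
    (hg : IsCompat 𝒩 g φ) (a : ℕ)
    (ha : ∀ ζ : k, ζ ^ p ^ e = 1 → SemilinearAut.baseAut φ ζ = ζ ^ a)
    {y : Pic0 K F} (hy : IsToric T (p ^ e) y) : g • y = a • y := by
  have hm : p ^ e ≠ 0 := pow_ne_zero _ hp.ne_zero
  obtain ⟨D, f, rfl, h⟩ := hy.exists_isOne hx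
  obtain ⟨n, hn⟩ := 𝒩.exists_isLarge hx hb
  obtain ⟨ζ, hζ, hW⟩ := 𝒩.exists_zeta hx hb hn hm h
  have hζ0 : ∀ s, ζ s ≠ 0 := by
    intro s h0
    have := hζ s
    rw [h0, zero_pow hm] at this
    exact zero_ne_one this
  -- `g • D`
  have hgD := h.smul hg
  obtain ⟨ζg, -, hWg⟩ := 𝒩.exists_zeta hx hb hn hm hgD
  have hζg : ∀ s, ζg s = ζ s ^ a := fun s => by
    rw [𝒩.zeta_smul hb hn hg hW hWg s, ha _ (hζ s)]
  -- `a • D`
  have hWa := W_nsmul 𝒩 hx hb hn hm h hW a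
  -- the difference
  obtain ⟨f', hneg⟩ := (h.nsmul a).exists_neg
  have hE := hgD.add hneg
  obtain ⟨ζE, -, hWE⟩ := 𝒩.exists_zeta hx hb hn hm hE
  have h1 : ζg = ζE * ζ ^ a := by
    refine 𝒩.zeta_add hb hn hWE hWa ?_
    rw [neg_add_cancel_right]
    exact hWg
  have hζE : ζE = 1 := by
    funext s
    have h2 := congrFun h1 s
    rw [Pi.mul_apply, Pi.pow_apply, hζg s] at h2
    exact (mul_eq_right₀ (pow_ne_zero _ (hζ0 s))).1 h2.symm
  rw [hζE] at hWE
  have hprin := 𝒩.isPrincipal_of_prime_pow hx hb hn hp hpk e hE hWE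
  rw [SemilinearAut.pic0_smul_mk, ← pic0_mk_nsmul]
  apply pic0_mk_eq_mk_of_isPrincipal
  have h3 : ((SemilinearAut.degZeroSMulHom g D : Divisor.degZero (K := K) (F := F)) : Divisor K F)
      - ((a • D : Divisor.degZero (K := K) (F := F)) : Divisor K F)
      = g • (D : Divisor K F) + -(a • (D : Divisor K F)) := by
    rw [SemilinearAut.coe_degZeroSMulHom, sub_eq_add_neg]
    rfl
  rw [h3]
  exact hprin

/-- [TORIC1] `(g - 1) y` is toric if `g` induces the identity on the residue fields. -/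
theorem isToric_smul_sub (hx : IsSepParam K x) {m : ℕ} (hm : m ≠ 0) {g : SemilinearAut K F}
    (hg : IsCompat 𝒩 g 1) {y : Pic0 K F} (hy : m • y = 0) : IsToric T m (g • y - y) := by
  obtain ⟨D, rfl⟩ := Pic0.mk_surjective y
  rw [← pic0_mk_nsmul] at hy
  obtain ⟨f, hf, hfD⟩ := isPrincipal_of_pic0_mk_eq_zero hy
  have hfD' : ∀ v : Place K F, (m : ℤ) * (D : Divisor K F) v = v.ord f := by
    intro v
    rw [← hfD v]
    show _ = (m • (D : Divisor K F)) v
    rw [Finsupp.smul_apply, nsmul_eq_mul]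
  obtain ⟨h₁, a₁, ha₁, hr₁⟩ := RedData_smul_div T.R₁ g hg.mem₁
    (fun u => by rw [hg.red₁ u, one_smul]) (fun c hc => hg.unit c hc) hf
  obtain ⟨h₂, a₂, ha₂, hr₂⟩ := RedData_smul_div T.R₂ g hg.mem₂
    (fun u => by rw [hg.red₂ u, one_smul]) (fun c hc => (T.const_mem _).1 (hg.unit c hc)) hf
  obtain ⟨b₁, hb₁⟩ := IsAlgClosed.exists_pow_nat_eq a₁ (Nat.pos_of_ne_zero hm)
  obtain ⟨b₂, hb₂⟩ := IsAlgClosed.exists_pow_nat_eq a₂ (Nat.pos_of_ne_zero hm)
  have hb₁0 : b₁ ≠ 0 := by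
    rintro rfl
    rw [zero_pow hm] at hb₁
    exact ha₁ hb₁.symm
  have hb₂0 : b₂ ≠ 0 := by
    rintro rfl
    rw [zero_pow hm] at hb₂
    exact ha₂ hb₂.symm
  refine ⟨SemilinearAut.degZeroSMulHom g D - D, ⟨(g • f) * f⁻¹, h₁, h₂⟩, algebraMap k Fb b₁,
    algebraMap k Fb b₂, ?_, ?_, ?_, ?_, ?_⟩
  · rw [SemilinearAut.pic0_smul_mk, pic0_mk_sub]
  · intro v
    show (m : ℤ) * (g • (D : Divisor K F) - (D : Divisor K F)) v = v.ord ((g • f) * f⁻¹)
    have hgf : g • f ≠ 0 := by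
      rw [Ne, smul_eq_zero_iff_eq]
      exact hf
    have key : v.ord (g • f) = (g⁻¹ • v).ord f := by
      have := SemilinearAut.ord_smul g (g⁻¹ • v) f
      rwa [smul_inv_smul] at this
    rw [Finsupp.sub_apply, SemilinearAut.divisor_smul_apply, mul_sub, hfD', hfD',
      v.ord_mul hgf (inv_ne_zero hf), v.ord_inv, key, sub_eq_add_neg]
  · rwa [Ne, map_eq_zero]
  · rwa [Ne, map_eq_zero]
  · apply Prod.ext
    · show T.R₁.red ⟨_, h₁⟩ = algebraMap k Fb b₁ ^ m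
      rw [hr₁, ← map_pow, hb₁]
    · show T.R₂.red ⟨_, h₂⟩ = algebraMap k Fb b₂ ^ m
      rw [hr₂, ← map_pow, hb₂]

/-- [UNIP-abs] **unipotency**. -/
theorem unipotent_of_torsion (hx : IsSepParam K x) (hb : IsSepParam k t) {p : ℕ}
    (hp : p.Prime) (hpk : (p : k) ≠ 0) (e : ℕ) {g g' : SemilinearAut K F}
    (hg : IsCompat 𝒩 g 1) (hg' : IsCompat 𝒩 g' 1) {y : Pic0 K F} (hy : p ^ e • y = 0) :
    g' • (g • y - y) = g • y - y := by
  have h := smul_eq_nsmul_of_isToric 𝒩 hx hb hp hpk e hg' 1 (fun ζ _ => by simp)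
    (isToric_smul_sub 𝒩 hx (pow_ne_zero _ hp.ne_zero) hg hy)
  rwa [one_smul] at h

end Fermat.Agent.SS
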