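import Fermat.Agent.SS.CL

/-!
# SS / abstract part : the commutative algebra of [INJp]

* `connectedness'`, `bounded'` : the connectedness lemma of `SS/CL.lean` for three subalgebras
  `B₁, B₂ ≤ B` of an ambient algebra.
* `IsGr`, `grSub` : the algebra `⊕ Λ i y ^ i` attached to a graded family of lattices.
* `graded_connectedness`, `cyclic_connectedness`.
-/

set_option autoImplicit false
set_option linter.unusedSectionVars false
set_option linter.style.haveILetI false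

namespace Fermat.Agent.SS.InjAlg

section CLsub

variable {A : Type*} [CommRing A] {E : Type*} [CommRing E] [Algebra A E]

/-- divisibility in a subalgebra -/
theorem dvd_in_subalgebra (S : Subalgebra A E) (π : A) (x : S) :
    algebraMap A S π ∣ x ↔ ∃ b ∈ S, (x : E) = algebraMap A E π * b := by
  constructor
  · rintro ⟨b, rfl⟩
    exact ⟨b, b.2, rfl⟩
  · rintro ⟨b, hb, h⟩
    exact ⟨⟨b, hb⟩, Subtype.ext h⟩

/-- The connectedness lemma for three subalgebras `B₁, B₂ ≤ B` of an ambient algebra. -/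
theorem connectedness' [IsLocalRing A] (B₁ B₂ B : Subalgebra A E) (h1 : B₁ ≤ B) (h2 : B₂ ≤ B)
    (π : A)
    (hcap : ∀ x : E, x ∈ B₁ → x ∈ B₂ → ∃ a : A, algebraMap A E a = x)
    (hsat : ∀ a : A, (∃ b ∈ B₁, algebraMap A E a = algebraMap A E π * b) → π ∣ a)
    (hH1 : ∃ c : ℕ, ∀ (n : ℕ) (x : E), x ∈ B →
      (∃ b₁ ∈ B₁, ∃ b₂ ∈ B₂, algebraMap A E (π ^ n) * x = b₁ + b₂) →
        ∃ b₁ ∈ B₁, ∃ b₂ ∈ B₂, algebraMap A E (π ^ c) * x = b₁ + b₂)
    (e₁ e₂ : E) (he₁ : e₁ ∈ B₁) (he₂ : e₂ ∈ B₂)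
    (h₁ : ∃ b ∈ B₁, e₁ ^ 2 - e₁ = algebraMap A E π * b)
    (h₂ : ∃ b ∈ B₂, e₂ ^ 2 - e₂ = algebraMap A E π * b)
    (h₁₂ : ∃ b ∈ B, e₁ - e₂ = algebraMap A E π * b) :
    (∃ b ∈ B₁, e₁ = algebraMap A E π * b) ∨ (∃ b ∈ B₁, e₁ - 1 = algebraMap A E π * b) := by
  have key := connectedness (A := A) (B := B) (B₁.comap B.val) (B₂.comap B.val) π
    (by
      intro x hx₁ hx₂
      obtain ⟨a, ha⟩ := hcap x hx₁ hx₂
      exact ⟨a, Subtype.ext ha⟩)
    (by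
      rintro a ⟨b, hb, hab⟩
      exact hsat a ⟨b, hb, congrArg Subtype.val hab⟩)
    (by
      obtain ⟨c, hc⟩ := hH1
      refine ⟨c, ?_⟩
      rintro n x ⟨b₁, hb₁, b₂, hb₂, hbb⟩
      obtain ⟨c₁, hc₁, c₂, hc₂, hcc⟩ := hc n x x.2 ⟨b₁, hb₁, b₂, hb₂, congrArg Subtype.val hbb⟩
      exact ⟨⟨c₁, h1 hc₁⟩, hc₁, ⟨c₂, h2 hc₂⟩, hc₂, Subtype.ext hcc⟩)
    ⟨e₁, h1 he₁⟩ ⟨e₂, h2 he₂⟩ he₁ he₂
    (by
      obtain ⟨b, hb, hbb⟩ := h₁
      exact ⟨⟨b, h1 hb⟩, hb, Subtype.ext hbb⟩)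
    (by
      obtain ⟨b, hb, hbb⟩ := h₂
      exact ⟨⟨b, h2 hb⟩, hb, Subtype.ext hbb⟩)
    (by
      obtain ⟨b, hb, hbb⟩ := h₁₂
      exact ⟨⟨b, hb⟩, Subtype.ext hbb⟩)
  rcases key with ⟨b, hb, hbb⟩ | ⟨b, hb, hbb⟩
  · exact Or.inl ⟨b, hb, congrArg Subtype.val hbb⟩
  · exact Or.inr ⟨b, hb, congrArg Subtype.val hbb⟩

/-- bounded torsion of `B / (B₁ + B₂)` if it is generated by a finitely generated submodule -/
theorem bounded' [IsDomain A] [ValuationRing A] (B₁ B₂ B : Subalgebra A E) (π : A) (hπ0 : π ≠ 0)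
    (hrank : ∀ c : A, c ≠ 0 → ∃ n : ℕ, c ∣ π ^ n) (G : Submodule A E) (hG : G.FG)
    (hB : Subalgebra.toSubmodule B ≤
      Subalgebra.toSubmodule B₁ ⊔ Subalgebra.toSubmodule B₂ ⊔ G) :
    ∃ c : ℕ, ∀ (n : ℕ) (x : E), x ∈ B →
      (∃ b₁ ∈ B₁, ∃ b₂ ∈ B₂, algebraMap A E (π ^ n) * x = b₁ + b₂) →
        ∃ b₁ ∈ B₁, ∃ b₂ ∈ B₂, algebraMap A E (π ^ c) * x = b₁ + b₂ := by
  set Q := Subalgebra.toSubmodule B₁ ⊔ Subalgebra.toSubmodule B₂ with hQ
  set M : Submodule A (E ⧸ Q) := G.map Q.mkQ with hM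
  haveI : Module.Finite A M := Module.Finite.iff_fg.2 (hG.map _)
  obtain ⟨c, hc0, hc⟩ := exists_ne_zero_smul_torsion (A := A) M
  obtain ⟨k, d, hd⟩ := hrank c hc0
  refine ⟨k, fun n x hxB hx => ?_⟩
  obtain ⟨b₁, hb₁, b₂, hb₂, hbb⟩ := hx
  have hxM : Q.mkQ x ∈ M := by
    obtain ⟨y, hy, z, hz, hyz⟩ := Submodule.mem_sup.1 (hB hxB)
    refine ⟨z, hz, ?_⟩
    rw [← hyz, map_add, (Submodule.Quotient.mk_eq_zero Q).2 hy |> fun h => (h : Q.mkQ y = 0),
      zero_add]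
  have h1 : (π ^ n) • Q.mkQ x = 0 := by
    rw [← map_smul, Algebra.smul_def, hbb]
    exact (Submodule.Quotient.mk_eq_zero Q).2
      (Submodule.add_mem_sup ((Subalgebra.mem_toSubmodule B₁).2 hb₁)
        ((Subalgebra.mem_toSubmodule B₂).2 hb₂))
  have h2 := hc ⟨Q.mkQ x, hxM⟩ ⟨π ^ n, pow_ne_zero _ hπ0, Subtype.ext h1⟩
  have h2' : c • Q.mkQ x = 0 := congrArg Subtype.val h2
  have h3 : (π ^ k) • Q.mkQ x = 0 := by rw [hd, mul_comm, mul_smul, h2', smul_zero]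
  rw [← map_smul] at h3
  have h4 : (π ^ k) • x ∈ Q := (Submodule.Quotient.mk_eq_zero Q).1 h3
  obtain ⟨y, hy, z, hz, hyz⟩ := Submodule.mem_sup.1 h4
  exact ⟨y, (Subalgebra.mem_toSubmodule B₁).1 hy, z, (Subalgebra.mem_toSubmodule B₂).1 hz, by
    rw [hyz, Algebra.smul_def]⟩

end CLsub

section Cyc

variable {R : Type*} [CommRing R]

/-- the averaging idempotent of a cyclic covering -/
theorem dvd_avg_sq_sub (π z q : R) (p : ℕ) (hq : (p : R) * q = 1) (hz : π ∣ z ^ p - 1) :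
    π ∣ (q * ∑ i ∈ Finset.range p, z ^ i) ^ 2 - q * ∑ i ∈ Finset.range p, z ^ i := by
  set s := ∑ i ∈ Finset.range p, z ^ i with hs
  have h1 : s * (z - 1) = z ^ p - 1 := geom_sum_mul z p
  have h2 : (z - 1) ∣ s - p := by
    have : s - p = ∑ i ∈ Finset.range p, (z ^ i - 1) := by
      rw [Finset.sum_sub_distrib, hs]; simp
    rw [this]
    exact Finset.dvd_sum fun i _ => by simpa using sub_dvd_pow_sub_pow z 1 i
  obtain ⟨c, hc⟩ := h2
  have h3 : (q * s) ^ 2 - q * s = (z ^ p - 1) * (q ^ 2 * c) + q * s * ((p : R) * q - 1) := by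
    rw [← h1]
    linear_combination q ^ 2 * s * hc
  rw [h3, hq, sub_self, mul_zero, add_zero]
  exact hz.mul_right _

theorem dvd_avg_sub_avg (π z z' q : R) (p : ℕ) (hz : π ∣ z - z') :
    π ∣ q * ∑ i ∈ Finset.range p, z ^ i - q * ∑ i ∈ Finset.range p, z' ^ i := by
  rw [← mul_sub, ← Finset.sum_sub_distrib]
  exact (Finset.dvd_sum fun i _ => hz.trans (sub_dvd_pow_sub_pow z z' i)).mul_left _

end Cyc

section Graded

variable {A F E : Type*} [CommRing A] [Field F] [Algebra A F] [CommRing E] [Algebra F E]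
  [Algebra A E] [IsScalarTower A F E]

/-- a "`ℤ/p`-graded" family of lattices: `Λ i Λ j ⊆ Λ (i + j)`, `f Λ (i + p) ⊆ Λ i`. -/
structure IsGr (p : ℕ) (f : F) (Λ : ℕ → Submodule A F) : Prop where
  one_mem : (1 : F) ∈ Λ 0
  mul_mem : ∀ {i j : ℕ} {a b : F}, a ∈ Λ i → b ∈ Λ j → a * b ∈ Λ (i + j)
  per : ∀ {i : ℕ} {a : F}, a ∈ Λ (i + p) → a * f ∈ Λ i

/-- `⊕ Λ i y ^ i` -/
def grSub (y : E) (Λ : ℕ → Submodule A F) : Submodule A E :=
  Submodule.span A {z | ∃ i : ℕ, ∃ b ∈ Λ i, z = b • y ^ i}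

theorem smul_pow_mem_grSub (y : E) (Λ : ℕ → Submodule A F) {i : ℕ} {b : F} (hb : b ∈ Λ i) :
    b • y ^ i ∈ grSub y Λ :=
  Submodule.subset_span ⟨i, b, hb, rfl⟩

theorem grSub_mono (y : E) {Λ Λ' : ℕ → Submodule A F} (h : ∀ i, Λ i ≤ Λ' i) :
    grSub y Λ ≤ grSub y Λ' := by
  apply Submodule.span_mono
  rintro _ ⟨i, b, hb, rfl⟩
  exact ⟨i, b, h i hb, rfl⟩

variable {p : ℕ} {f : F} {Λ : ℕ → Submodule A F} {y : E}

theorem IsGr.one_mem_grSub (h : IsGr p f Λ) : (1 : E) ∈ grSub y Λ := by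
  have := smul_pow_mem_grSub y Λ h.one_mem
  simpa using this

theorem IsGr.mul_mem_grSub (h : IsGr p f Λ) {a b : E} (ha : a ∈ grSub y Λ)
    (hb : b ∈ grSub y Λ) : a * b ∈ grSub y Λ := by
  have : grSub y Λ * grSub y Λ ≤ grSub y Λ := by
    unfold grSub
    rw [Submodule.span_mul_span]
    apply Submodule.span_le.2
    rintro _ ⟨_, ⟨i, a, ha, rfl⟩, _, ⟨j, b, hb, rfl⟩, rfl⟩
    refine Submodule.subset_span ⟨i + j, a * b, h.mul_mem ha hb, ?_⟩
    show a • y ^ i * b • y ^ j = _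
    rw [smul_mul_smul_comm, pow_add]
  exact this (Submodule.mul_mem_mul ha hb)

theorem IsGr.pow_mem (h : IsGr p f Λ) {a : F} (ha : a ∈ Λ 1) (m : ℕ) : a ^ m ∈ Λ m := by
  induction m with
  | zero => simpa using h.one_mem
  | succ m ih => rw [pow_succ]; exact h.mul_mem ih ha

/-- the subalgebra `⊕ Λ i y ^ i` -/
def IsGr.alg (h : IsGr p f Λ) (y : E) : Subalgebra A E :=
  (grSub y Λ).toSubalgebra h.one_mem_grSub (fun _ _ ha hb => h.mul_mem_grSub ha hb)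

theorem IsGr.mem_alg (h : IsGr p f Λ) {z : E} : z ∈ h.alg y ↔ z ∈ grSub y Λ := Iff.rfl

theorem IsGr.exists_coeff_of_gen (h : IsGr p f Λ) (hp : 0 < p) (hy : y ^ p = algebraMap F E f)
    (i : ℕ) : ∀ b ∈ Λ i, ∃ c : ℕ → F, (∀ j, c j ∈ Λ j) ∧
      b • y ^ i = ∑ j ∈ Finset.range p, c j • y ^ j := by
  induction i using Nat.strong_induction_on with
  | _ i ih =>
    intro b hb
    rcases lt_or_ge i p with hi | hi
    · refine ⟨fun j => if j = i then b else 0, fun j => ?_, ?_⟩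
      · by_cases hj : j = i
        · subst hj; simpa using hb
        · simp [hj]
      · rw [Finset.sum_eq_single i]
        · simp
        · intro j _ hj; simp [hj]
        · intro hi'; exact absurd (Finset.mem_range.2 hi) hi'
    · obtain ⟨j, rfl⟩ := Nat.exists_eq_add_of_le' hi
      obtain ⟨c, hc, hcc⟩ := ih j (by omega) (b * f) (h.per hb)
      refine ⟨c, hc, ?_⟩
      rw [← hcc, pow_add, hy, mul_smul, Algebra.smul_def f, mul_comm (y ^ j)]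

theorem IsGr.mem_grSub_iff (h : IsGr p f Λ) (hp : 0 < p) (hy : y ^ p = algebraMap F E f) {z : E} :
    z ∈ grSub y Λ ↔ ∃ c : ℕ → F, (∀ j, c j ∈ Λ j) ∧ z = ∑ j ∈ Finset.range p, c j • y ^ j := by
  constructor
  · intro hz
    induction hz using Submodule.span_induction with
    | mem z hz =>
      obtain ⟨i, b, hb, rfl⟩ := hz
      exact h.exists_coeff_of_gen hp hy i b hb
    | zero => exact ⟨0, fun j => (Λ j).zero_mem, by simp⟩
    | add z z' _ _ hz hz' =>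
      obtain ⟨c, hc, rfl⟩ := hz
      obtain ⟨c', hc', rfl⟩ := hz'
      exact ⟨c + c', fun j => (Λ j).add_mem (hc j) (hc' j), by
        simp [add_smul, Finset.sum_add_distrib]⟩
    | smul a z _ hz =>
      obtain ⟨c, hc, rfl⟩ := hz
      exact ⟨fun j => a • c j, fun j => (Λ j).smul_mem a (hc j), by
        simp [Finset.smul_sum]⟩
  · rintro ⟨c, hc, rfl⟩
    exact Submodule.sum_mem _ fun j _ => smul_pow_mem_grSub y Λ (hc j)

theorem coeff_unique (hli : LinearIndependent F (fun i : Fin p => y ^ (i : ℕ))) {c c' : ℕ → F}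
    (h : ∑ j ∈ Finset.range p, c j • y ^ j = ∑ j ∈ Finset.range p, c' j • y ^ j) :
    ∀ j < p, c j = c' j := by
  intro j hj
  have h0 : ∑ i : Fin p, (c i - c' i) • y ^ (i : ℕ) = 0 := by
    rw [Fin.sum_univ_eq_sum_range (fun i => (c i - c' i) • y ^ i) p]
    simp only [sub_smul, Finset.sum_sub_distrib, h, sub_self]
  have := Fintype.linearIndependent_iff.1 hli (fun i => c i - c' i) h0 ⟨j, hj⟩
  exact sub_eq_zero.1 this


theorem algebraMap_eq_sum (hp : 0 < p) (a : F) :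
    algebraMap F E a = ∑ j ∈ Finset.range p, (if j = 0 then a else 0) • y ^ j := by
  rw [Finset.sum_eq_single 0]
  · simp [Algebra.smul_def]
  · intro j _ hj; simp [hj]
  · intro h; exact absurd (Finset.mem_range.2 hp) h

theorem algebraMap_mul_sum (π : A) (c : ℕ → F) :
    algebraMap A E π * ∑ j ∈ Finset.range p, c j • y ^ j =
      ∑ j ∈ Finset.range p, (algebraMap A F π * c j) • y ^ j := by
  rw [Finset.mul_sum]
  refine Finset.sum_congr rfl fun j _ => ?_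
  rw [IsScalarTower.algebraMap_apply A F E, mul_smul, Algebra.smul_def (algebraMap A F π)]

/-- **graded connectedness lemma** -/
theorem graded_connectedness [IsDomain A] [ValuationRing A]
    (hp : 0 < p) (hy : y ^ p = algebraMap F E f)
    (hli : LinearIndependent F (fun i : Fin p => y ^ (i : ℕ)))
    {Λ₁ Λ₂ Λ : ℕ → Submodule A F} (g₁ : IsGr p f Λ₁) (g₂ : IsGr p f Λ₂) (g : IsGr p f Λ)
    (le₁ : ∀ i, Λ₁ i ≤ Λ i) (le₂ : ∀ i, Λ₂ i ≤ Λ i)
    (hcap0 : ∀ u, u ∈ Λ₁ 0 → u ∈ Λ₂ 0 → ∃ a : A, algebraMap A F a = u)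
    (hcapi : ∀ i, 0 < i → i < p → ∀ u, u ∈ Λ₁ i → u ∈ Λ₂ i → u = 0)
    (π : A) (hπ0 : π ≠ 0) (hrank : ∀ c : A, c ≠ 0 → ∃ n : ℕ, c ∣ π ^ n)
    (hsat : ∀ a : A, (∃ b ∈ Λ₁ 0, algebraMap A F a = algebraMap A F π * b) → π ∣ a)
    (hfg : ∀ i, i < p → ∃ G : Submodule A F, G.FG ∧ Λ i ≤ Λ₁ i ⊔ Λ₂ i ⊔ G)
    (e₁ e₂ : E) (he₁ : e₁ ∈ grSub y Λ₁) (he₂ : e₂ ∈ grSub y Λ₂)
    (h₁ : ∃ b ∈ grSub y Λ₁, e₁ ^ 2 - e₁ = algebraMap A E π * b)
    (h₂ : ∃ b ∈ grSub y Λ₂, e₂ ^ 2 - e₂ = algebraMap A E π * b)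
    (h₁₂ : ∃ b ∈ grSub y Λ, e₁ - e₂ = algebraMap A E π * b) :
    (∃ b ∈ grSub y Λ₁, e₁ = algebraMap A E π * b) ∨
      (∃ b ∈ grSub y Λ₁, e₁ - 1 = algebraMap A E π * b) := by
  refine connectedness' (g₁.alg y) (g₂.alg y) (g.alg y) (grSub_mono y le₁) (grSub_mono y le₂) π
    ?_ ?_ ?_ e₁ e₂ he₁ he₂ h₁ h₂ h₁₂
  · -- the intersection
    intro z hz₁ hz₂
    obtain ⟨c, hc, rfl⟩ := (g₁.mem_grSub_iff hp hy).1 hz₁
    obtain ⟨c', hc', hcc⟩ := (g₂.mem_grSub_iff hp hy).1 hz₂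
    have hu := coeff_unique hli hcc
    obtain ⟨a, ha⟩ := hcap0 (c 0) (hc 0) (by rw [hu 0 hp]; exact hc' 0)
    refine ⟨a, ?_⟩
    rw [Finset.sum_eq_single 0]
    · rw [← ha, IsScalarTower.algebraMap_apply A F E, Algebra.smul_def]; simp
    · intro j hj hj0
      have hjp := Finset.mem_range.1 hj
      rw [hcapi j (Nat.pos_of_ne_zero hj0) hjp (c j) (hc j) (by rw [hu j hjp]; exact hc' j),
        zero_smul]
    · intro h; exact absurd (Finset.mem_range.2 hp) h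
  · -- saturation
    rintro a ⟨b, hb, hab⟩
    obtain ⟨c, hc, rfl⟩ := (g₁.mem_grSub_iff hp hy).1 hb
    rw [algebraMap_mul_sum, IsScalarTower.algebraMap_apply A F E, algebraMap_eq_sum (y := y) hp]
      at hab
    have := coeff_unique hli hab 0 hp
    exact hsat a ⟨c 0, hc 0, by simpa using this⟩
  · -- bounded torsion
    choose! G hG hGle using hfg
    refine bounded' (g₁.alg y) (g₂.alg y) (g.alg y) π hπ0 hrank
      (⨆ i ∈ Finset.range p,
        (G i).map ((LinearMap.toSpanSingleton F E (y ^ i)).restrictScalars A))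
      (Submodule.fg_biSup _ _ fun i hi => (hG i (Finset.mem_range.1 hi)).map _) ?_
    intro z hz
    obtain ⟨c, hc, rfl⟩ := (g.mem_grSub_iff hp hy).1 hz
    refine Submodule.sum_mem _ fun j hj => ?_
    have hjp := Finset.mem_range.1 hj
    obtain ⟨ab, hab, d, hd, habd⟩ := Submodule.mem_sup.1 (hGle j hjp (hc j))
    obtain ⟨a, ha, b, hb, rfl⟩ := Submodule.mem_sup.1 hab
    rw [← habd, add_smul, add_smul]
    refine Submodule.add_mem_sup (Submodule.add_mem_sup (smul_pow_mem_grSub y Λ₁ ha)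
      (smul_pow_mem_grSub y Λ₂ hb)) ?_
    refine Submodule.mem_iSup_of_mem j (Submodule.mem_iSup_of_mem hj ?_)
    exact ⟨d, hd, rfl⟩

end Graded

section Cyclic

open Polynomial

theorem avg_sq_sub_mem {A E : Type*} [CommRing A] [CommRing E] [Algebra A E] (S : Subalgebra A E)
    (π q : A) (p : ℕ) (hq : (p : A) * q = 1) {z : E} (hz : z ∈ S)
    (h : ∃ b ∈ S, z ^ p - 1 = algebraMap A E π * b) :
    ∃ b ∈ S, (algebraMap A E q * ∑ i ∈ Finset.range p, z ^ i) ^ 2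
      - algebraMap A E q * ∑ i ∈ Finset.range p, z ^ i = algebraMap A E π * b := by
  have := dvd_avg_sq_sub (algebraMap A S π) ⟨z, hz⟩ (algebraMap A S q) p
    (by rw [← map_natCast (algebraMap A S), ← map_mul, hq, map_one])
    ((dvd_in_subalgebra _ _ _).2 (by simpa using h))
  obtain ⟨b, hb, e⟩ := (dvd_in_subalgebra _ _ _).1 this
  exact ⟨b, hb, by simpa using e⟩

theorem avg_sub_avg_mem {A E : Type*} [CommRing A] [CommRing E] [Algebra A E] (S : Subalgebra A E)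
    (π q : A) (p : ℕ) {z z' : E} (hz : z ∈ S) (hz' : z' ∈ S)
    (h : ∃ b ∈ S, z - z' = algebraMap A E π * b) :
    ∃ b ∈ S, algebraMap A E q * ∑ i ∈ Finset.range p, z ^ i
      - algebraMap A E q * ∑ i ∈ Finset.range p, z' ^ i = algebraMap A E π * b := by
  have := dvd_avg_sub_avg (algebraMap A S π) ⟨z, hz⟩ ⟨z', hz'⟩ (algebraMap A S q) p
    ((dvd_in_subalgebra _ _ _).2 (by simpa using h))
  obtain ⟨b, hb, e⟩ := (dvd_in_subalgebra _ _ _).1 this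
  exact ⟨b, hb, by simpa using e⟩

/-- **connectedness of the cyclic covering `y ^ p = f`** -/
theorem cyclic_connectedness {A F : Type*} [CommRing A] [IsDomain A] [ValuationRing A] [Field F]
    [Algebra A F] {p : ℕ} (hp : 2 ≤ p) {f : F}
    {Λ₁ Λ₂ Λ : ℕ → Submodule A F} (g₁ : IsGr p f Λ₁) (g₂ : IsGr p f Λ₂) (g : IsGr p f Λ)
    (le₁ : ∀ i, Λ₁ i ≤ Λ i) (le₂ : ∀ i, Λ₂ i ≤ Λ i)
    (hcap0 : ∀ u, u ∈ Λ₁ 0 → u ∈ Λ₂ 0 → ∃ a : A, algebraMap A F a = u)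
    (hcapi : ∀ i, 0 < i → i < p → ∀ u, u ∈ Λ₁ i → u ∈ Λ₂ i → u = 0)
    (π : A) (hπ0 : π ≠ 0) (hrank : ∀ c : A, c ≠ 0 → ∃ n : ℕ, c ∣ π ^ n)
    (hsat : ∀ a : A, (∃ b ∈ Λ₁ 0, algebraMap A F a = algebraMap A F π * b) → π ∣ a)
    (hfg : ∀ i, i < p → ∃ G : Submodule A F, G.FG ∧ Λ i ≤ Λ₁ i ⊔ Λ₂ i ⊔ G)
    (q : A) (hq : (p : A) * q = 1) (u u' : F) (hu : u ∈ Λ₁ 1) (hu' : u' ∈ Λ₂ 1)
    (h1 : ∃ b ∈ Λ₁ 0, u ^ p * f - 1 = algebraMap A F π * b)
    (h2 : ∃ b ∈ Λ₂ 0, u' ^ p * f - 1 = algebraMap A F π * b)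
    (h12 : ∃ b ∈ Λ 1, u - u' = algebraMap A F π * b) :
    (∃ b ∈ Λ₁ 0, algebraMap A F q = algebraMap A F π * b) ∨
      (∃ b ∈ Λ₁ 1, algebraMap A F q * u = algebraMap A F π * b) := by
  have hp0 : 0 < p := by omega
  set P : F[X] := X ^ p - C f with hP
  have hmonic : P.Monic := monic_X_pow_sub_C f hp0.ne'
  have hdeg : P.natDegree = p := natDegree_X_pow_sub_C
  let E := AdjoinRoot P
  let y : E := AdjoinRoot.root P
  have hy : y ^ p = algebraMap F E f := by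
    have h0 : AdjoinRoot.mk P P = 0 := AdjoinRoot.mk_self
    rw [hP, map_sub, map_pow, AdjoinRoot.mk_X, AdjoinRoot.mk_C, sub_eq_zero] at h0
    exact h0
  have hli : LinearIndependent F (fun i : Fin p => y ^ (i : ℕ)) := by
    have hd : (AdjoinRoot.powerBasis' hmonic).dim = p := by
      rw [AdjoinRoot.powerBasis'_dim, hdeg]
    have := (AdjoinRoot.powerBasis' hmonic).basis.linearIndependent.comp (Fin.cast hd.symm)
      (Fin.cast_injective _)
    have e : (fun i : Fin p => y ^ (i : ℕ)) =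
        (AdjoinRoot.powerBasis' hmonic).basis ∘ Fin.cast hd.symm := by
      ext i
      simp [y]
    rw [e]
    exact this
  -- the elements `z = u y`, `z' = u' y`
  have hz : u • y ∈ grSub y Λ₁ := by simpa using smul_pow_mem_grSub y Λ₁ hu
  have hz' : u' • y ∈ grSub y Λ₂ := by simpa using smul_pow_mem_grSub y Λ₂ hu'
  have hpow : ∀ w : F, (w • y) ^ p - 1 = algebraMap F E (w ^ p * f - 1) := by
    intro w
    rw [_root_.smul_pow, hy, Algebra.smul_def, map_sub, map_mul, map_one]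
  have hconst : ∀ (Λ' : ℕ → Submodule A F) (w : F), (∃ b ∈ Λ' 0, w = algebraMap A F π * b) →
      ∃ b ∈ grSub y Λ', algebraMap F E w = algebraMap A E π * b := by
    rintro Λ' w ⟨b, hb, rfl⟩
    refine ⟨b • y ^ 0, smul_pow_mem_grSub y Λ' hb, ?_⟩
    rw [map_mul, ← IsScalarTower.algebraMap_apply A F E, pow_zero, Algebra.smul_def, mul_one]
  have hexp : ∀ w : F, algebraMap A E q * ∑ i ∈ Finset.range p, (w • y) ^ i =
      ∑ i ∈ Finset.range p, (algebraMap A F q * w ^ i) • y ^ i := by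
    intro w
    simp only [_root_.smul_pow]
    exact algebraMap_mul_sum q _
  have key := graded_connectedness hp0 hy hli g₁ g₂ g le₁ le₂ hcap0 hcapi π hπ0 hrank hsat hfg
    (algebraMap A E q * ∑ i ∈ Finset.range p, (u • y) ^ i)
    (algebraMap A E q * ∑ i ∈ Finset.range p, (u' • y) ^ i)
    ((g₁.alg y).mul_mem ((g₁.alg y).algebraMap_mem q)
      ((g₁.alg y).sum_mem fun i _ => (g₁.alg y).pow_mem hz i))
    ((g₂.alg y).mul_mem ((g₂.alg y).algebraMap_mem q)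
      ((g₂.alg y).sum_mem fun i _ => (g₂.alg y).pow_mem hz' i))
    (avg_sq_sub_mem (g₁.alg y) π q p hq hz (by rw [hpow]; exact hconst Λ₁ _ h1))
    (avg_sq_sub_mem (g₂.alg y) π q p hq hz' (by rw [hpow]; exact hconst Λ₂ _ h2))
    (avg_sub_avg_mem (g.alg y) π q p (grSub_mono y le₁ hz) (grSub_mono y le₂ hz') (by
      obtain ⟨b, hb, hbb⟩ := h12
      refine ⟨b • y, (by simpa using smul_pow_mem_grSub y Λ hb : b • y ∈ grSub y Λ), ?_⟩
      rw [← sub_smul, hbb, mul_smul, Algebra.smul_def (algebraMap A F π),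
        ← IsScalarTower.algebraMap_apply A F E]))
  rcases key with ⟨b, hb, hbb⟩ | ⟨b, hb, hbb⟩
  · left
    obtain ⟨c, hc, rfl⟩ := (g₁.mem_grSub_iff hp0 hy).1 hb
    rw [hexp, algebraMap_mul_sum] at hbb
    exact ⟨c 0, hc 0, by simpa using coeff_unique hli hbb 0 hp0⟩
  · right
    obtain ⟨c, hc, rfl⟩ := (g₁.mem_grSub_iff hp0 hy).1 hb
    have h1E : (1 : E) = ∑ j ∈ Finset.range p, (if j = 0 then (1 : F) else 0) • y ^ j := by
      rw [← algebraMap_eq_sum hp0, map_one]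
    rw [hexp, algebraMap_mul_sum, h1E, ← Finset.sum_sub_distrib] at hbb
    simp only [← sub_smul] at hbb
    exact ⟨c 1, hc 1, by simpa using coeff_unique hli hbb 1 (by omega)⟩

end Cyclic

end Fermat.Agent.SS.InjAlg
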