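import Fermat.Agent.SS.Abs.WStruct
import Fermat.Agent.SS.CL
import Fermat.Agent.SS.Abs.InjAlg

/-!
# SS / abstract part, leaves [INJp], [INJ] : a divisor with trivial gluing datum is principal
-/

set_option autoImplicit false
set_option linter.unusedSectionVars false

open AlgebraicCurve

namespace Fermat.Agent.SS

open Fermat.Agent.RED Fermat.Agent.S24 Fermat.Agent.SS.InjAlg

variable {K F k Fb : Type*} [Field K] [Field F] [Algebra K F] [Field k] [Field Fb] [Algebra k Fb]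
  [IsAlgClosed K] [IsAlgClosed k] {x : F} {t : Fb}

namespace NodalData

variable {T : TwoRed K F k Fb} (𝒩 : NodalData T)

omit [IsAlgClosed K] [IsAlgClosed k] in
theorem X_mono {a b a' b' : ℕ} (ha : a ≤ a') (hb : b ≤ b') : 𝒩.X a b ≤ 𝒩.X a' b' := by
  unfold X
  exact add_le_add (nsmul_le_nsmul_left 𝒩.P_nonneg ha) (nsmul_le_nsmul_left 𝒩.P'_nonneg hb)

omit [IsAlgClosed K] [IsAlgClosed k] in
theorem L_X_mono (D : Divisor K F) {a b a' b' : ℕ} (ha : a ≤ a') (hb : b ≤ b') :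
    riemannRochSpace (D + 𝒩.X a b) ≤ riemannRochSpace (D + 𝒩.X a' b') :=
  L_mono (add_le_add le_rfl (𝒩.X_mono ha hb))

omit [IsAlgClosed K] [IsAlgClosed k] in
theorem X_add (a b a' b' : ℕ) : 𝒩.X a b + 𝒩.X a' b' = 𝒩.X (a + a') (b + b') := by
  unfold X
  rw [add_nsmul, add_nsmul]
  abel

/-- [SUM] Mayer-Vietoris for the lattices `L(D + a P + b P') ∩ O`. -/
theorem exists_add_of_mem (hx : IsSepParam K x) (hb : IsSepParam k t) {n : ℕ}
    (hn : 𝒩.IsLarge n) {D : Divisor K F} (hD : Divisor.degree D = 0) {ζ : 𝒩.S → k}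
    (h : ∀ a b : ℕ, n ≤ a + b → (𝒩.W D a b : Set (Fb × Fb)) = 𝒩.M ζ a b)
    {a a' b b' : ℕ} (ha : a ≤ a') (hb' : b' ≤ b) (hab : n ≤ a + b') (u : T.O)
    (hu : (u : F) ∈ riemannRochSpace (D + 𝒩.X a' b)) :
    ∃ u₁ u₂ : T.O, (u₁ : F) ∈ riemannRochSpace (D + 𝒩.X a' b') ∧
      (u₂ : F) ∈ riemannRochSpace (D + 𝒩.X a b) ∧ u = u₁ + u₂ := by
  have := hx.finite_L (D + 𝒩.X a' b)
  have e : ∀ a b : ℕ, n ≤ a + b → 𝒩.W D a b = 𝒩.Msub ζ a b := fun a b hab =>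
    SetLike.coe_injective (by rw [h a b hab, coe_Msub])
  refine T.exists_add_of_redSub_sup (riemannRochSpace (D + 𝒩.X a' b)) _ _
    (𝒩.L_X_mono D le_rfl hb') (𝒩.L_X_mono D ha le_rfl) (𝒩.on2 _ inferInstance) ?_ u hu
  have h1 : T.redSub (riemannRochSpace (D + 𝒩.X a' b)) = 𝒩.Msub ζ a' b := e a' b (by omega)
  have h2 : T.redSub (riemannRochSpace (D + 𝒩.X a' b')) = 𝒩.Msub ζ a' b' := e a' b' (by omega)
  have h3 : T.redSub (riemannRochSpace (D + 𝒩.X a b)) = 𝒩.Msub ζ a b := e a b (by omega)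
  rw [h1, h2, h3, 𝒩.Msub_sup hb hn ζ ha hb' hab]

/-- [H1FG] -/
theorem exists_add_add_of_mem (hx : IsSepParam K x) (hb : IsSepParam k t) {n : ℕ}
    (hn : 𝒩.IsLarge n) {D : Divisor K F} (hD : Divisor.degree D = 0) {ζ : 𝒩.S → k}
    (h : ∀ a b : ℕ, n ≤ a + b → (𝒩.W D a b : Set (Fb × Fb)) = 𝒩.M ζ a b)
    (a b : ℕ) (u : T.O) (hu : (u : F) ∈ riemannRochSpace (D + 𝒩.X a b)) :
    ∃ u₁ u₂ u₃ : T.O, (u₁ : F) ∈ riemannRochSpace (D + 𝒩.X (a + n) 0) ∧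
      (u₂ : F) ∈ riemannRochSpace (D + 𝒩.X 0 (b + n)) ∧
      (u₃ : F) ∈ riemannRochSpace (D + 𝒩.X n n) ∧ u = u₁ + u₂ + u₃ := by
  -- first split off the poles along `P`
  have hu' : (u : F) ∈ riemannRochSpace (D + 𝒩.X (a + n) (b + n)) :=
    𝒩.L_X_mono D (by omega) (by omega) hu
  obtain ⟨u₁, v, hu₁, hv, rfl⟩ := 𝒩.exists_add_of_mem hx hb hn hD h (a := n) (a' := a + n)
    (b := b + n) (b' := 0) (by omega) (by omega) (by omega) u hu'
  -- `v ∈ L(D + n P + (b + n) P')`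
  obtain ⟨u₃, u₂, hu₃, hu₂, rfl⟩ := 𝒩.exists_add_of_mem hx hb hn hD h (a := 0) (a' := n)
    (b := b + n) (b' := n) (by omega) (by omega) (by omega) v hv
  exact ⟨u₁, u₂, u₃, hu₁, hu₂, hu₃, by ring⟩

omit [IsAlgClosed K] [IsAlgClosed k] in
/-- [CAP] `L(D + a P) ∩ L(D + b P') = L(D)` -/
theorem mem_L_of_mem_of_mem {D : Divisor K F} {a b : ℕ} {u : F}
    (h₁ : u ∈ riemannRochSpace (D + 𝒩.X a 0)) (h₂ : u ∈ riemannRochSpace (D + 𝒩.X 0 b)) :
    u ∈ riemannRochSpace D := by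
  rw [mem_L_iff] at h₁ h₂ ⊢
  rcases h₁ with h₁ | h₁
  · exact Or.inl h₁
  rcases h₂ with h₂ | h₂
  · exact Or.inl h₂
  right
  intro v
  have e1 := h₁ v
  have e2 := h₂ v
  simp only [X, Finsupp.add_apply, Finsupp.smul_apply, zero_smul, add_zero, zero_add] at e1 e2
  rcases 𝒩.disj v with h | h
  · rw [h] at e1; simpa using e1
  · rw [h] at e2; simpa using e2

theorem algebraMap_A_apply (c : T.A) : algebraMap T.A F c = algebraMap K F (c : K) := rfl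

theorem smul_A_def (c : T.A) (u : F) : c • u = (c : K) • u := rfl

/-- the lattice `⋃_{(a, b) ∈ s} L(i D + a P + b P') ∩ O` -/
def Lam (D : Divisor K F) (s : AddSubmonoid (ℕ × ℕ)) (i : ℕ) : Submodule T.A F where
  carrier := {u | u ∈ T.O ∧ ∃ ab ∈ s, u ∈ riemannRochSpace (i • D + 𝒩.X ab.1 ab.2)}
  zero_mem' := ⟨T.O.zero_mem, 0, s.zero_mem, Submodule.zero_mem _⟩
  add_mem' := by
    rintro u v ⟨hu, ab, hab, hu'⟩ ⟨hv, cd, hcd, hv'⟩
    exact ⟨T.O.add_mem hu hv, ab + cd, s.add_mem hab hcd, Submodule.add_mem _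
      (𝒩.L_X_mono _ (Nat.le_add_right _ _) (Nat.le_add_right _ _) hu')
      (𝒩.L_X_mono _ (Nat.le_add_left _ _) (Nat.le_add_left _ _) hv')⟩
  smul_mem' := by
    rintro c u ⟨hu, ab, hab, hu'⟩
    refine ⟨?_, ab, hab, Submodule.smul_mem _ (c : K) hu'⟩
    rw [smul_A_def, Algebra.smul_def]
    exact T.O.mul_mem (T.algebraMap_mem_O c.2) hu

theorem mem_Lam {D : Divisor K F} {s : AddSubmonoid (ℕ × ℕ)} {i : ℕ} {u : F} :
    u ∈ 𝒩.Lam D s i ↔ u ∈ T.O ∧ ∃ ab ∈ s, u ∈ riemannRochSpace (i • D + 𝒩.X ab.1 ab.2) := Iff.rfl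

theorem Lam_mono (D : Divisor K F) {s s' : AddSubmonoid (ℕ × ℕ)} (h : s ≤ s') (i : ℕ) :
    𝒩.Lam D s i ≤ 𝒩.Lam D s' i := by
  rintro u ⟨hu, ab, hab, hu'⟩
  exact ⟨hu, ab, h hab, hu'⟩

theorem isGr_Lam {p : ℕ} {D : Divisor K F} {f : T.O} (h : IsOne T p D f)
    (s : AddSubmonoid (ℕ × ℕ)) : IsGr p (f : F) (𝒩.Lam D s) where
  one_mem := ⟨T.O.one_mem, 0, s.zero_mem, by
    have : (0 • D + 𝒩.X (0 : ℕ × ℕ).1 (0 : ℕ × ℕ).2) = 0 := by simp [X]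
    rw [this]
    exact one_mem_L_zero⟩
  mul_mem := by
    rintro i j u v ⟨hu, ab, hab, hu'⟩ ⟨hv, cd, hcd, hv'⟩
    refine ⟨T.O.mul_mem hu hv, ab + cd, s.add_mem hab hcd, ?_⟩
    have := mul_mem_L hu' hv'
    have e : i • D + 𝒩.X ab.1 ab.2 + (j • D + 𝒩.X cd.1 cd.2) =
        (i + j) • D + 𝒩.X (ab + cd).1 (ab + cd).2 := by
      rw [Prod.fst_add, Prod.snd_add, ← 𝒩.X_add, add_nsmul]
      abel
    rwa [e] at this
  per := by
    rintro i u ⟨hu, ab, hab, hu'⟩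
    refine ⟨T.O.mul_mem hu f.2, ab, hab, ?_⟩
    rcases eq_or_ne u 0 with rfl | hu0
    · simp
    rw [mem_L_iff_of_ne_zero hu0] at hu'
    rw [mem_L_iff_of_ne_zero (mul_ne_zero hu0 h.ne_zero)]
    intro v
    have h1 := hu' v
    rw [v.ord_mul hu0 h.ne_zero, ← h.ord v]
    simp only [Finsupp.add_apply, Finsupp.smul_apply, add_smul, nsmul_eq_mul] at h1 ⊢
    linarith

/-- poles along `P` only -/
def s₁ : AddSubmonoid (ℕ × ℕ) := AddSubmonoid.prod ⊤ ⊥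

/-- poles along `P'` only -/
def s₂ : AddSubmonoid (ℕ × ℕ) := AddSubmonoid.prod ⊥ ⊤

theorem mem_s₁ {ab : ℕ × ℕ} : ab ∈ s₁ ↔ ab.2 = 0 := by
  simp [s₁, AddSubmonoid.mem_prod]

theorem mem_s₂ {ab : ℕ × ℕ} : ab ∈ s₂ ↔ ab.1 = 0 := by
  simp [s₂, AddSubmonoid.mem_prod]

theorem mem_L_of_mem_Lam {D : Divisor K F} {i : ℕ} {u : F} (h₁ : u ∈ 𝒩.Lam D s₁ i)
    (h₂ : u ∈ 𝒩.Lam D s₂ i) : u ∈ riemannRochSpace (i • D) := by
  obtain ⟨-, ⟨a, b⟩, hab, hu⟩ := h₁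
  obtain ⟨-, ⟨c, d⟩, hcd, hu'⟩ := h₂
  obtain rfl : b = 0 := mem_s₁.1 hab
  obtain rfl : c = 0 := mem_s₂.1 hcd
  exact 𝒩.mem_L_of_mem_of_mem hu hu'

theorem Lam_cap_zero (hx : IsSepParam K x) {D : Divisor K F} {u : F} (h₁ : u ∈ 𝒩.Lam D s₁ 0)
    (h₂ : u ∈ 𝒩.Lam D s₂ 0) : ∃ a : T.A, algebraMap T.A F a = u := by
  have h := 𝒩.mem_L_of_mem_Lam h₁ h₂
  rw [zero_smul, hx.L_zero, Submodule.mem_one] at h
  obtain ⟨c, rfl⟩ := h
  exact ⟨⟨c, h₁.1.1⟩, rfl⟩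

/-- a nonzero section of a degree zero divisor trivialises it -/
theorem _root_.Fermat.Agent.SS.IsOne.isPrincipal_of_mem_L (hx : IsSepParam K x) {p : ℕ}
    (hp : p.Prime) {D : Divisor K F} {f : T.O} (h : IsOne T p D f) {i : ℕ} (hi : 0 < i)
    (hip : i < p) {w : F} (hw : w ∈ riemannRochSpace (i • D)) (hw0 : w ≠ 0) :
    D.IsPrincipal := by
  rw [mem_L_iff_of_ne_zero hw0] at hw
  have h0 : 0 ≤ dv K w + i • D := fun v => by
    rw [Finsupp.add_apply, hx.dv_apply]; exact hw v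
  have hdeg : Divisor.degree (dv K w + i • D) = 0 := by
    rw [map_add, hx.degree_dv, map_nsmul, h.deg]; simp
  have hz := hx.eq_zero_of_degree_eq_zero h0 hdeg
  have hv : ∀ v : Place K F, v.ord w + i * D v = 0 := fun v => by
    have := DFunLike.congr_fun hz v
    simpa [hx.dv_apply] using this
  have hcop : IsCoprime (i : ℤ) (p : ℤ) := by
    rw [Nat.isCoprime_iff_coprime]
    exact (Nat.coprime_of_lt_prime hi.ne' hip hp).symm
  obtain ⟨a, b, hab⟩ := hcop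
  refine ⟨w ^ (-a) * (f : F) ^ b, mul_ne_zero (zpow_ne_zero _ hw0) (zpow_ne_zero _ h.ne_zero),
    fun v => ?_⟩
  rw [v.ord_mul (zpow_ne_zero _ hw0) (zpow_ne_zero _ h.ne_zero), v.ord_zpow, v.ord_zpow,
    ← h.ord v]
  have := hv v
  have e : v.ord w = - (i * D v) := by linarith
  rw [e]
  linear_combination (- D v) * hab

theorem exists_uniformizer : ∃ π₀ : K, π₀ ≠ 0 ∧ π₀ ∈ T.A ∧ π₀⁻¹ ∉ T.A := by
  obtain ⟨u, h₁, h₂, e₁, e₂⟩ := T.joint_surj 1 0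
  set U : T.O := ⟨u, h₁, h₂⟩ with hU
  have hred : T.red U = (1, 0) := Prod.ext e₁ e₂
  have hz : T.red (U ^ 2 - U) = 0 := by
    rw [map_sub, map_pow, hred]
    ext <;> simp
  obtain ⟨π, u', hπ, hu'⟩ := T.exists_eq_smul_of_red_eq_zero hz
  have hne : ((U ^ 2 - U : T.O) : F) ≠ 0 := by
    intro h0
    have h0' : U ^ 2 - U = 0 := Subtype.ext h0
    have h1 : U * (U - 1) = 0 := by rw [← h0']; ring
    rcases mul_eq_zero.1 h1 with h2 | h2
    · rw [h2, map_zero] at hred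
      exact zero_ne_one (congrArg Prod.fst hred)
    · rw [sub_eq_zero.1 h2, map_one] at hred
      exact one_ne_zero (congrArg Prod.snd hred)
  have hπ0 : π ≠ 0 := by
    rintro rfl
    rw [map_zero, zero_mul] at hu'
    exact hne hu'
  have hπ' : π⁻¹ ∉ T.A := hπ.resolve_left hπ0
  exact ⟨π, hπ0, (T.A.mem_or_inv_mem π).resolve_right hπ', hπ'⟩

include 𝒩 in
theorem rank_one {π : T.A} (hπ : (π : K)⁻¹ ∉ T.A) (c : T.A) (hc : c ≠ 0) :
    ∃ n : ℕ, c ∣ π ^ n := by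
  have hc' : (c : K) ≠ 0 := fun h => hc (Subtype.ext h)
  obtain ⟨n, hn⟩ := 𝒩.arch π c hc' π.2 hπ
  refine ⟨n, ⟨_, hn⟩, Subtype.ext ?_⟩
  show (π : K) ^ n = c * (π ^ n * (c : K)⁻¹)
  field_simp

theorem Lam_sat {D : Divisor K F} {s : AddSubmonoid (ℕ × ℕ)} {π : T.A} (hπ0 : π ≠ 0) (a : T.A)
    (h : ∃ b ∈ 𝒩.Lam D s 0, algebraMap T.A F a = algebraMap T.A F π * b) : π ∣ a := by
  obtain ⟨b, hb, hab⟩ := h
  have hπ' : (π : K) ≠ 0 := fun h => hπ0 (Subtype.ext h)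
  have hb' : b = algebraMap K F ((a : K) * (π : K)⁻¹) := by
    rw [algebraMap_A_apply, algebraMap_A_apply] at hab
    rw [map_mul, hab, map_inv₀]
    have : algebraMap K F (π : K) ≠ 0 := by simpa using hπ'
    field_simp
  have hmem : (a : K) * (π : K)⁻¹ ∈ T.A := by
    rw [TwoRed.mem_A, ← hb']
    exact hb.1.1
  refine ⟨⟨_, hmem⟩, Subtype.ext ?_⟩
  show (a : K) = π * (a * (π : K)⁻¹)
  field_simp

theorem Lam_fg (hx : IsSepParam K x) (hb : IsSepParam k t) {n : ℕ} (hn : 𝒩.IsLarge n) {p : ℕ}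
    (hp : p ≠ 0) {D : Divisor K F} {f : T.O} (h : IsOne T p D f) (i : ℕ) :
    ∃ G : Submodule T.A F, G.FG ∧ 𝒩.Lam D ⊤ i ≤ 𝒩.Lam D s₁ i ⊔ 𝒩.Lam D s₂ i ⊔ G := by
  obtain ⟨ζ, -, hζ⟩ := 𝒩.exists_zeta hx hb hn hp (h.nsmul i)
  have := hx.finite_L (i • D + 𝒩.X n n)
  obtain ⟨m, β, -, -, hβ⟩ := T.exists_basis (riemannRochSpace (i • D + 𝒩.X n n))
    (𝒩.on2 _ inferInstance)
  refine ⟨Submodule.span T.A (Set.range fun j => (β j : F)),
    Submodule.fg_span (Set.finite_range _), ?_⟩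
  rintro u ⟨hu, ⟨a, b⟩, -, hu'⟩
  obtain ⟨u₁, u₂, u₃, h₁, h₂, h₃, hsum⟩ := 𝒩.exists_add_add_of_mem hx hb hn (h.nsmul i).deg hζ
    a b ⟨u, hu⟩ hu'
  have hsum' : u = u₁ + u₂ + u₃ := congrArg Subtype.val hsum
  rw [hsum']
  refine Submodule.add_mem_sup (Submodule.add_mem_sup ⟨u₁.2, (a + n, 0), mem_s₁.2 rfl, h₁⟩
    ⟨u₂.2, (0, b + n), mem_s₂.2 rfl, h₂⟩) ?_
  obtain ⟨c, hc, hcc⟩ := hβ u₃ h₃
  rw [hcc]
  refine Submodule.sum_mem _ fun j _ => ?_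
  have : algebraMap K F (c j) * (β j : F) = (⟨c j, hc j⟩ : T.A) • (β j : F) := by
    rw [smul_A_def, Algebra.smul_def]
  rw [this]
  exact Submodule.smul_mem _ _ (Submodule.subset_span ⟨j, rfl⟩)

theorem Lam_div {D : Divisor K F} {s : AddSubmonoid (ℕ × ℕ)} {i : ℕ} {π : K} (hπ0 : π ≠ 0)
    {w w' : F} (hw : w ∈ 𝒩.Lam D s i) (hw' : w' ∈ T.O) (h : w = algebraMap K F π * w') :
    w' ∈ 𝒩.Lam D s i := by
  obtain ⟨-, ab, hab, hL⟩ := hw
  refine ⟨hw', ab, hab, ?_⟩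
  have : w' = π⁻¹ • w := by
    rw [h, Algebra.smul_def, map_inv₀]
    have : algebraMap K F π ≠ 0 := by simpa using hπ0
    field_simp
  rw [this]
  exact Submodule.smul_mem _ _ hL

theorem _root_.Fermat.Agent.SS.TwoRed.red_eq_zero_of_eq_mul {π : K} (hπ : π ∈ T.A)
    (hπ' : π⁻¹ ∉ T.A) (w : T.O) {b : F} (hb : b ∈ T.O) (h : (w : F) = algebraMap K F π * b) :
    T.red w = 0 := by
  have : w = ⟨algebraMap K F π, T.algebraMap_mem_O hπ⟩ * ⟨b, hb⟩ := Subtype.ext h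
  rw [this, map_mul, T.red_const_eq_zero hπ hπ', zero_mul]

theorem _root_.Fermat.Agent.SS.TwoRed.exists_natCast_inv {p : ℕ} (hpk : (p : k) ≠ 0) :
    ∃ q : T.A, (p : T.A) * q = 1 := by
  have hcoe : ((p : T.O) : F) = algebraMap K F (p : K) := by
    rw [map_natCast]; rfl
  have hred : T.red (p : T.O) ≠ 0 := by
    rw [map_natCast]
    intro h0
    have h1 : ((p : Fb × Fb)).1 = 0 := by rw [h0]; rfl
    rw [Prod.fst_natCast, ← map_natCast (algebraMap k Fb)] at h1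
    exact hpk ((map_eq_zero (algebraMap k Fb)).1 h1)
  have hp0 : (p : K) ≠ 0 := by
    intro h0
    apply hred
    have : (p : T.O) = 0 := Subtype.ext (by rw [hcoe, h0, map_zero]; rfl)
    rw [this, map_zero]
  have hmem : (p : K) ∈ T.A := natCast_mem _ p
  have hinv : (p : K)⁻¹ ∈ T.A := by
    by_contra hni
    apply hred
    have := T.red_const_eq_zero hmem hni
    rw [← this]
    congr 1
    exact Subtype.ext hcoe
  exact ⟨⟨_, hinv⟩, Subtype.ext (by push_cast; exact mul_inv_cancel₀ hp0)⟩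

/-- [INJp] **injectivity, prime case** (connectedness of the special fibre of the cyclic covering
`y ^ p = f`). -/
theorem isPrincipal_of_prime (hx : IsSepParam K x) (hb : IsSepParam k t) {n : ℕ}
    (hn : 𝒩.IsLarge n) {p : ℕ} (hp : p.Prime) (hpk : (p : k) ≠ 0) {D : Divisor K F} {f : T.O}
    (h : IsOne T p D f)
    (hW : ∀ a b : ℕ, n ≤ a + b → (𝒩.W D a b : Set (Fb × Fb)) = 𝒩.M 1 a b) :
    D.IsPrincipal := by
  by_contra hD
  -- sections reducing to `(1, 1)` on the two charts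
  have h1M : (1 : Fb × Fb) ∈ 𝒩.W D n 0 := by
    have := 𝒩.one_mem_M n 0
    rw [← hW n 0 (by omega)] at this
    exact this
  have h1M' : (1 : Fb × Fb) ∈ 𝒩.W D 0 n := by
    have := 𝒩.one_mem_M 0 n
    rw [← hW 0 n (by omega)] at this
    exact this
  obtain ⟨u, hu, hured⟩ := h1M
  obtain ⟨u', hu', hured'⟩ := h1M'
  have g₁ := 𝒩.isGr_Lam h s₁
  have g₂ := 𝒩.isGr_Lam h s₂
  have g := 𝒩.isGr_Lam h ⊤
  have hu1 : (u : F) ∈ 𝒩.Lam D s₁ 1 := ⟨u.2, (n, 0), mem_s₁.2 rfl, by rw [one_smul]; exact hu⟩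
  have hu2 : (u' : F) ∈ 𝒩.Lam D s₂ 1 := ⟨u'.2, (0, n), mem_s₂.2 rfl, by rw [one_smul]; exact hu'⟩
  -- the discrepancies
  let d : Fin 3 → T.O := ![u ^ p * f - 1, u' ^ p * f - 1, u - u']
  have hd : ∀ i, T.red (d i) = 0 := by
    intro i
    fin_cases i <;> simp [d, hured, hured', h.red]
  obtain ⟨π, d', hπ0, hπA, hπ', hdd⟩ := T.exists_common_smul d hd exists_uniformizer
  obtain ⟨q, hq⟩ := T.exists_natCast_inv hpk
  have hpi0 : (⟨π, hπA⟩ : T.A) ≠ 0 := fun h0 => hπ0 (congrArg Subtype.val h0)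
  have m1 : (u : F) ^ p * f - 1 ∈ 𝒩.Lam D s₁ 0 :=
    Submodule.sub_mem _ (g₁.per (by rw [zero_add]; exact g₁.pow_mem hu1 p)) g₁.one_mem
  have m2 : (u' : F) ^ p * f - 1 ∈ 𝒩.Lam D s₂ 0 :=
    Submodule.sub_mem _ (g₂.per (by rw [zero_add]; exact g₂.pow_mem hu2 p)) g₂.one_mem
  have m3 : (u : F) - u' ∈ 𝒩.Lam D ⊤ 1 :=
    Submodule.sub_mem _ (𝒩.Lam_mono D le_top 1 hu1) (𝒩.Lam_mono D le_top 1 hu2)
  have key := cyclic_connectedness hp.two_le g₁ g₂ g (𝒩.Lam_mono D le_top) (𝒩.Lam_mono D le_top)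
    (fun w h1 h2 => 𝒩.Lam_cap_zero hx h1 h2)
    (fun i hi hip w h1 h2 => by
      by_contra hw0
      exact hD (h.isPrincipal_of_mem_L hx hp hi hip (𝒩.mem_L_of_mem_Lam h1 h2) hw0))
    ⟨π, hπA⟩ hpi0 (𝒩.rank_one hπ') (𝒩.Lam_sat hpi0)
    (fun i _ => 𝒩.Lam_fg hx hb hn hp.ne_zero h i) q hq u u' hu1 hu2
    ⟨d' 0, 𝒩.Lam_div hπ0 m1 (d' 0).2 (hdd 0), hdd 0⟩
    ⟨d' 1, 𝒩.Lam_div hπ0 m2 (d' 1).2 (hdd 1), hdd 1⟩
    ⟨d' 2, 𝒩.Lam_div hπ0 m3 (d' 2).2 (hdd 2), hdd 2⟩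
  -- the reduction of `q` is not zero
  set Q : T.O := ⟨algebraMap K F (q : K), T.algebraMap_mem_O q.2⟩ with hQ
  have hQ1 : (p : T.O) * Q = 1 := Subtype.ext (by
    have := congrArg (fun z : T.A => algebraMap K F (z : K)) hq
    simpa using this)
  have hQred : T.red Q ≠ 0 := by
    intro h0
    have := congrArg T.red hQ1
    rw [map_mul, h0, mul_zero, map_one] at this
    exact zero_ne_one this
  rcases key with ⟨b, hb, hbb⟩ | ⟨b, hb, hbb⟩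
  · exact hQred (T.red_eq_zero_of_eq_mul hπA hπ' Q hb.1 hbb)
  · apply hQred
    have := T.red_eq_zero_of_eq_mul hπA hπ' (Q * u) hb.1 hbb
    rwa [map_mul, hured, mul_one] at this

theorem _root_.Fermat.Agent.SS.isOne_zero (T : TwoRed K F k Fb) (m : ℕ) : IsOne T m 0 1 where
  deg := map_zero _
  ord := fun v => by simp
  red := map_one _

/-- [CONN0] the special fibre is connected: there is at least one node. -/
theorem nonempty_S (hx : IsSepParam K x) (hb : IsSepParam k t) : Nonempty 𝒩.S := by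
  by_contra hS
  rw [not_nonempty_iff] at hS
  obtain ⟨n, hn⟩ := 𝒩.exists_isLarge hx hb
  have h : IsOne T 1 0 1 := isOne_zero T 1
  obtain ⟨ζ, -, hζ⟩ := 𝒩.exists_zeta hx hb hn one_ne_zero h
  have hmem : ∀ a b : ℕ, ((1, 0) : Fb × Fb) ∈ 𝒩.M ζ a b := fun a b =>
    ⟨(𝒩.one_mem_M a b).1, Submodule.zero_mem _, fun s => hS.elim s⟩
  have h1M : ((1, 0) : Fb × Fb) ∈ 𝒩.W 0 n 0 := by
    have := hmem n 0
    rw [← hζ n 0 (by omega)] at this
    exact this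
  have h1M' : ((1, 0) : Fb × Fb) ∈ 𝒩.W 0 0 n := by
    have := hmem 0 n
    rw [← hζ 0 n (by omega)] at this
    exact this
  obtain ⟨u, hu, hured⟩ := h1M
  obtain ⟨u', hu', hured'⟩ := h1M'
  have g₁ := 𝒩.isGr_Lam h s₁
  have g₂ := 𝒩.isGr_Lam h s₂
  have g := 𝒩.isGr_Lam h ⊤
  have hu1 : (u : F) ∈ 𝒩.Lam 0 s₁ 0 := ⟨u.2, (n, 0), mem_s₁.2 rfl, by rw [smul_zero]; exact hu⟩
  have hu2 : (u' : F) ∈ 𝒩.Lam 0 s₂ 0 := ⟨u'.2, (0, n), mem_s₂.2 rfl, by rw [smul_zero]; exact hu'⟩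
  let d : Fin 3 → T.O := ![u ^ 2 - u, u' ^ 2 - u', u - u']
  have hd : ∀ i, T.red (d i) = 0 := by
    intro i
    fin_cases i <;> simp [d, hured, hured']
  obtain ⟨π, d', hπ0, hπA, hπ', hdd⟩ := T.exists_common_smul d hd exists_uniformizer
  have hpi0 : (⟨π, hπA⟩ : T.A) ≠ 0 := fun h0 => hπ0 (congrArg Subtype.val h0)
  have hsq : ∀ {s : AddSubmonoid (ℕ × ℕ)} {w : F}, w ∈ 𝒩.Lam 0 s 0 → w ^ 2 - w ∈ 𝒩.Lam 0 s 0 := by
    intro s w hw
    refine Submodule.sub_mem _ ?_ hw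
    rw [pow_two]
    exact (𝒩.isGr_Lam h s).mul_mem hw hw
  have m3 : (u : F) - u' ∈ 𝒩.Lam 0 ⊤ 0 :=
    Submodule.sub_mem _ (𝒩.Lam_mono 0 le_top 0 hu1) (𝒩.Lam_mono 0 le_top 0 hu2)
  have hin : ∀ {s : AddSubmonoid (ℕ × ℕ)} {w : F}, w ∈ 𝒩.Lam 0 s 0 →
      w ∈ grSub (1 : F) (𝒩.Lam 0 s) := by
    intro s w hw
    simpa using smul_pow_mem_grSub (1 : F) (𝒩.Lam 0 s) hw
  have hy : (1 : F) ^ 1 = algebraMap F F ((1 : T.O) : F) := by simp
  have hout : ∀ {w : F}, w ∈ grSub (1 : F) (𝒩.Lam 0 s₁) → w ∈ T.O := by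
    intro w hw
    obtain ⟨c, hc, rfl⟩ := (g₁.mem_grSub_iff one_pos hy).1 hw
    simpa using (hc 0).1
  have key := graded_connectedness (E := F) (y := 1) one_pos hy
    (by rw [linearIndependent_unique_iff]; simp) g₁ g₂ g
    (𝒩.Lam_mono 0 le_top) (𝒩.Lam_mono 0 le_top)
    (fun w h1 h2 => 𝒩.Lam_cap_zero hx h1 h2)
    (fun i hi hip => by omega)
    ⟨π, hπA⟩ hpi0 (𝒩.rank_one hπ') (𝒩.Lam_sat hpi0)
    (fun i _ => 𝒩.Lam_fg hx hb hn one_ne_zero h i) u u' (hin hu1) (hin hu2)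
    ⟨d' 0, hin (𝒩.Lam_div hπ0 (hsq hu1) (d' 0).2 (hdd 0)), hdd 0⟩
    ⟨d' 1, hin (𝒩.Lam_div hπ0 (hsq hu2) (d' 1).2 (hdd 1)), hdd 1⟩
    ⟨d' 2, hin (𝒩.Lam_div hπ0 m3 (d' 2).2 (hdd 2)), hdd 2⟩
  rcases key with ⟨b, hb, hbb⟩ | ⟨b, hb, hbb⟩
  · have := T.red_eq_zero_of_eq_mul hπA hπ' u (hout hb) hbb
    rw [hured] at this
    exact one_ne_zero (congrArg Prod.fst this)
  · have := T.red_eq_zero_of_eq_mul hπA hπ' (u - 1) (hout hb) hbb
    rw [map_sub, hured, map_one] at this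
    have h2 := congrArg Prod.snd this
    simp at h2

theorem W_nsmul_succ (hx : IsSepParam K x) (hb : IsSepParam k t) {n : ℕ} (hn : 𝒩.IsLarge n)
    {m : ℕ} (hm : m ≠ 0) {D : Divisor K F} {f : T.O} (h : IsOne T m D f)
    (hW : ∀ a b : ℕ, n ≤ a + b → (𝒩.W D a b : Set (Fb × Fb)) = 𝒩.M 1 a b) (j : ℕ) :
    ∀ a b : ℕ, n ≤ a + b → (𝒩.W ((j + 1) • D) a b : Set (Fb × Fb)) = 𝒩.M 1 a b := by
  induction j with
  | zero => simpa using hW
  | succ j ih =>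
    obtain ⟨ζ, -, hζ⟩ := 𝒩.exists_zeta hx hb hn hm (h.nsmul (j + 1 + 1))
    have e : (j + 1 + 1) • D = (j + 1) • D + D := succ_nsmul D (j + 1)
    rw [e] at hζ ⊢
    have := 𝒩.zeta_add hb hn ih hW hζ
    rw [this, one_mul] at hζ
    exact hζ

theorem _root_.Fermat.Agent.SS.mem_valSubring_of_pow_mem {L : Type*} [Field L]
    (O : ValuationSubring L) {z : L} {m : ℕ} (hm : m ≠ 0) (h : z ^ m ∈ O) : z ∈ O := by
  rw [← O.valuation_le_one_iff] at h ⊢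
  rw [map_pow] at h
  exact (pow_le_one_iff hm).1 h

theorem _root_.Fermat.Agent.SS.exists_const_of_pow_eq_one {z : Fb} {m : ℕ} (hm : m ≠ 0)
    (h : z ^ m = 1) : ∃ l : k, algebraMap k Fb l = z := by
  have hint : IsIntegral k z := by
    refine ⟨Polynomial.X ^ m - 1, Polynomial.monic_X_pow_sub_C (1 : k) hm, ?_⟩
    simp [h]
  have := minpoly.mem_range_of_degree_eq_one k z
    (IsAlgClosed.degree_eq_one_of_irreducible k (minpoly.irreducible hint))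
  exact this

/-- [INJ] **injectivity, prime power case**. -/
theorem isPrincipal_of_prime_pow (hx : IsSepParam K x) (hb : IsSepParam k t) {n : ℕ}
    (hn : 𝒩.IsLarge n) {p : ℕ} (hp : p.Prime) (hpk : (p : k) ≠ 0) (e : ℕ)
    {D : Divisor K F} {f : T.O} (h : IsOne T (p ^ e) D f)
    (hW : ∀ a b : ℕ, n ≤ a + b → (𝒩.W D a b : Set (Fb × Fb)) = 𝒩.M 1 a b) :
    D.IsPrincipal := by
  induction e generalizing f with
  | zero => exact ⟨f, h.ne_zero, fun v => by simpa using h.ord v⟩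
  | succ e ih =>
    have hpe : p ^ e ≠ 0 := pow_ne_zero _ hp.ne_zero
    obtain ⟨j, hj⟩ : ∃ j, p ^ e = j + 1 := Nat.exists_eq_succ_of_ne_zero hpe
    have h' : IsOne T p (p ^ e • D) f :=
      ⟨by rw [map_nsmul, h.deg, smul_zero], fun v => by
        rw [← h.ord v, Finsupp.smul_apply]
        push_cast
        simp only [nsmul_eq_mul]
        push_cast
        ring, h.red⟩
    have hW' : ∀ a b : ℕ, n ≤ a + b → (𝒩.W (p ^ e • D) a b : Set (Fb × Fb)) = 𝒩.M 1 a b := by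
      rw [hj]
      exact 𝒩.W_nsmul_succ hx hb hn (pow_ne_zero _ hp.ne_zero) h hW j
    obtain ⟨g, hg0, hg⟩ := 𝒩.isPrincipal_of_prime hx hb hn hp hpk h' hW'
    -- `f / g ^ p` is a constant
    obtain ⟨c, hc⟩ := hx.mem_range_of_forall_ord_nonneg (f := (f : F) * (g ^ p)⁻¹) (fun v => by
      rw [v.ord_mul h.ne_zero (inv_ne_zero (pow_ne_zero _ hg0)), v.ord_inv, Place.ord_pow,
        ← hg v, ← h'.ord v]
      simp)
    obtain ⟨c₁, hc₁⟩ := IsAlgClosed.exists_pow_nat_eq c hp.pos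
    have hc0 : c₁ ≠ 0 := by
      rintro rfl
      rw [zero_pow hp.ne_zero] at hc₁
      rw [← hc₁, map_zero] at hc
      exact mul_ne_zero h.ne_zero (inv_ne_zero (pow_ne_zero _ hg0)) hc.symm
    set h₀ : F := algebraMap K F c₁ * g with hh₀
    have hh₀p : h₀ ^ p = f := by
      rw [hh₀, mul_pow, ← map_pow, hc₁, hc]
      field_simp
    have hh₀0 : h₀ ≠ 0 := mul_ne_zero (by simpa using hc0) hg0
    have hord : ∀ v : Place K F, v.ord h₀ = (p ^ e • D) v := fun v => by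
      rw [hh₀, v.ord_mul (by simpa using hc0) hg0, Place.ord_algebraMap, zero_add, hg v]
    have hmem : h₀ ∈ T.O :=
      ⟨mem_valSubring_of_pow_mem _ hp.ne_zero (by rw [hh₀p]; exact f.2.1),
        mem_valSubring_of_pow_mem _ hp.ne_zero (by rw [hh₀p]; exact f.2.2)⟩
    set H : T.O := ⟨h₀, hmem⟩ with hH
    have hHp : H ^ p = f := Subtype.ext hh₀p
    have hredp : T.red H ^ p = 1 := by rw [← map_pow, hHp, h.red]
    obtain ⟨l₁, hl₁⟩ := exists_const_of_pow_eq_one (k := k) hp.ne_zero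
      (congrArg Prod.fst hredp : (T.red H).1 ^ p = 1)
    obtain ⟨l₂, hl₂⟩ := exists_const_of_pow_eq_one (k := k) hp.ne_zero
      (congrArg Prod.snd hredp : (T.red H).2 ^ p = 1)
    -- a section reducing to `(1, 1)`
    have h1M : (1 : Fb × Fb) ∈ 𝒩.W D n 0 := by
      have := 𝒩.one_mem_M n 0
      rw [← hW n 0 (by omega)] at this
      exact this
    obtain ⟨u, hu, hured⟩ := h1M
    have hu0 : (u : F) ≠ 0 := by
      intro h0
      have : u = 0 := Subtype.ext h0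
      rw [this, map_zero] at hured
      exact zero_ne_one hured
    have hwL : ((u ^ (p ^ e) * H : T.O) : F) ∈
        riemannRochSpace ((p ^ e * n) • 𝒩.P + 0 • 𝒩.P') := by
      have h1 := pow_mem_L hu (p ^ e)
      rw [mem_L_iff_of_ne_zero (pow_ne_zero _ hu0)] at h1
      show (u : F) ^ (p ^ e) * h₀ ∈ _
      rw [mem_L_iff_of_ne_zero (mul_ne_zero (pow_ne_zero _ hu0) hh₀0)]
      intro v
      have h2 := h1 v
      rw [v.ord_mul (pow_ne_zero _ hu0) hh₀0, hord v]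
      simp only [X, Finsupp.add_apply, Finsupp.smul_apply, smul_add, zero_smul, add_zero,
        mul_smul] at h2 ⊢
      linarith
    obtain ⟨s⟩ := 𝒩.nonempty_S hx hb
    obtain ⟨c', hc1, hc2⟩ := 𝒩.glue _ _ _ hwL s
    have hredw : T.red (u ^ (p ^ e) * H) = T.red H := by
      rw [map_mul, map_pow, hured, one_pow, one_mul]
    rw [hredw, ← hl₁] at hc1
    rw [hredw, ← hl₂] at hc2
    have hl12 : l₁ = l₂ := (HasVal.unique (HasVal.const l₁) hc1).trans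
      (HasVal.unique (HasVal.const l₂) hc2).symm
    have hl0 : l₁ ≠ 0 := by
      rintro rfl
      have := congrArg Prod.fst hredp
      rw [Prod.pow_fst, ← hl₁, map_zero, zero_pow hp.ne_zero] at this
      exact zero_ne_one this
    -- divide by a lift of `l₁`
    obtain ⟨γ, hγ, hγred⟩ := T.R₁.exists_const l₁⁻¹
    have hγ2 : algebraMap K F γ ∈ T.R₂.O := (T.const_mem γ).1 hγ
    set Γ : T.O := ⟨algebraMap K F γ, hγ, hγ2⟩ with hΓ
    have hΓred : T.red Γ = (algebraMap k Fb l₁⁻¹, algebraMap k Fb l₁⁻¹) :=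
      Prod.ext hγred ((T.const_red γ hγ hγ2).symm.trans hγred)
    have hγ0 : algebraMap K F γ ≠ 0 := by
      intro h0
      have : Γ = 0 := Subtype.ext h0
      rw [this, map_zero] at hΓred
      have h9 : (0 : Fb) = algebraMap k Fb l₁⁻¹ := congrArg Prod.fst hΓred
      exact inv_ne_zero hl0 ((map_eq_zero (algebraMap k Fb)).1 h9.symm)
    refine ih (f := Γ * H) ⟨h.deg, fun v => ?_, ?_⟩
    · show _ = v.ord (algebraMap K F γ * h₀)
      rw [v.ord_mul hγ0 hh₀0, Place.ord_algebraMap, zero_add, hord v]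
      simp
    · rw [map_mul, hΓred]
      apply Prod.ext
      · show algebraMap k Fb l₁⁻¹ * (T.red H).1 = 1
        rw [← hl₁, ← map_mul, inv_mul_cancel₀ hl0, map_one]
      · show algebraMap k Fb l₁⁻¹ * (T.red H).2 = 1
        rw [← hl₂, ← hl12, ← map_mul, inv_mul_cancel₀ hl0, map_one]

end NodalData

end Fermat.Agent.SS
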