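import Fermat.Agent.RED.Deuring.Basic
import Fermat.Agent.RED.FF.Riemann
import Fermat.Agent.RED.FF.Degree
import Fermat.Prelude.Def_AlgebraicCurve_BaseChangeGalois

/-!
# SS / abstract part : definitions

A function field `F / K` with TWO constant reductions `R₁ R₂` with the same residue function field
`Fb / k` ("two components"), glued at finitely many "nodes" `(x₁ s, x₂ s)`.
See board, topic SS, blueprint v1 (#697).
-/

set_option autoImplicit false

open AlgebraicCurve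

namespace Fermat.Agent.SS

open Fermat.Agent.RED Fermat.Agent.S24

noncomputable section

variable {K F k Fb : Type*} [Field K] [Field F] [Algebra K F] [Field k] [Field Fb] [Algebra k Fb]

/-! ### value of a function at a place -/

open Classical in
/-- The value of `u` at the place `Q` (junk value `0` if `u` has a pole or no value in `k`). -/
def pval (Q : Place k Fb) (u : Fb) : k :=
  if h : ∃ c : k, u = algebraMap k Fb c ∨ 0 < Q.ord (u - algebraMap k Fb c) then h.choose else 0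

/-- `u` has the value `c` at `Q`. -/
def HasVal (Q : Place k Fb) (u : Fb) (c : k) : Prop :=
  u = algebraMap k Fb c ∨ 0 < Q.ord (u - algebraMap k Fb c)

/-! ### two reductions -/

/-- Two constant reductions of `F / K` with the same residue function field, inducing the same
valuation ring and residue map on the constants, and jointly surjective. -/
structure TwoRed (K F k Fb : Type*) [Field K] [Field F] [Algebra K F] [Field k] [Field Fb]
    [Algebra k Fb] where
  R₁ : RedData K F k Fb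
  R₂ : RedData K F k Fb
  const_mem : ∀ c : K, algebraMap K F c ∈ R₁.O ↔ algebraMap K F c ∈ R₂.O
  const_red : ∀ (c : K) (h₁ : algebraMap K F c ∈ R₁.O) (h₂ : algebraMap K F c ∈ R₂.O),
    R₁.red ⟨_, h₁⟩ = R₂.red ⟨_, h₂⟩
  joint_surj : ∀ a b : Fb, ∃ (u : F) (h₁ : u ∈ R₁.O) (h₂ : u ∈ R₂.O),
    R₁.red ⟨u, h₁⟩ = a ∧ R₂.red ⟨u, h₂⟩ = b

namespace TwoRed

variable (T : TwoRed K F k Fb)

/-- the valuation ring of the constant field -/
def A : ValuationSubring K := T.R₁.O.comap (algebraMap K F)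

/-- the "unit ball" `O₁ ∩ O₂` -/
def O : Subring F := T.R₁.O.toSubring ⊓ T.R₂.O.toSubring

theorem mem_O {u : F} : u ∈ T.O ↔ u ∈ T.R₁.O ∧ u ∈ T.R₂.O := Iff.rfl

/-- the reduction `O₁ ∩ O₂ → Fb × Fb` -/
def red : T.O →+* Fb × Fb :=
  RingHom.prod (T.R₁.red.comp (Subring.inclusion (inf_le_left : T.O ≤ T.R₁.O.toSubring)))
    (T.R₂.red.comp (Subring.inclusion (inf_le_right : T.O ≤ T.R₂.O.toSubring)))

theorem red_fst (u : T.O) : (T.red u).1 = T.R₁.red ⟨u, u.2.1⟩ := rfl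

theorem red_snd (u : T.O) : (T.red u).2 = T.R₂.red ⟨u, u.2.2⟩ := rfl

/-- The reduction of a `K`-subspace of `F`. -/
def redSub (V : Submodule K F) : Submodule k (Fb × Fb) where
  carrier := {w | ∃ u : T.O, (u : F) ∈ V ∧ T.red u = w}
  zero_mem' := ⟨0, by simp, map_zero _⟩
  add_mem' := by
    rintro _ _ ⟨x, hx, rfl⟩ ⟨y, hy, rfl⟩
    exact ⟨x + y, V.add_mem hx hy, map_add _ _ _⟩
  smul_mem' := by
    rintro a _ ⟨x, hx, rfl⟩
    obtain ⟨c, hc, hca⟩ := T.R₁.exists_const a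
    have hc2 : algebraMap K F c ∈ T.R₂.O := (T.const_mem c).1 hc
    refine ⟨⟨algebraMap K F c, hc, hc2⟩ * x, ?_, ?_⟩
    · have : ((⟨algebraMap K F c, hc, hc2⟩ * x : T.O) : F) = c • (x : F) := by
        rw [Algebra.smul_def]; rfl
      rw [this]
      exact V.smul_mem c hx
    · rw [map_mul]
      have h1 : T.red ⟨algebraMap K F c, hc, hc2⟩ = (algebraMap k Fb a, algebraMap k Fb a) := by
        apply Prod.ext
        · exact hca
        · exact (T.const_red c hc hc2).symm.trans hca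
      rw [h1]
      apply Prod.ext
      · simp [Algebra.smul_def]
      · simp [Algebra.smul_def]

theorem mem_redSub {V : Submodule K F} {w : Fb × Fb} :
    w ∈ T.redSub V ↔ ∃ u : T.O, (u : F) ∈ V ∧ T.red u = w := Iff.rfl

end TwoRed

/-! ### the nodal structure -/

/-- Sections of the "line bundle with gluing datum `ζ`" on the nodal curve: pairs `(w₁, w₂)` in
`L(E₁) × L(E₂)` with values `w₁(x₁ s) = ζ s * w₂(x₂ s)` at the nodes. -/
def matchSet {S : Type*} (x₁ x₂ : S → Place k Fb) (ζ : S → k) (E₁ E₂ : Divisor k Fb) :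
    Set (Fb × Fb) :=
  {w | w.1 ∈ riemannRochSpace E₁ ∧ w.2 ∈ riemannRochSpace E₂ ∧
    ∀ s, ∃ c : k, HasVal (x₁ s) w.1 (ζ s * c) ∧ HasVal (x₂ s) w.2 c}

/-- The geometric input: two "charts" `P`, `P'` (effective divisors with disjoint supports, e.g.
`(j)_∞` and `(j - c)_0`), their reductions on the two components, the pole bounds, the nodes, the
gluing conditions, the count of the nodes and the preservation of dimensions. -/
structure NodalData (T : TwoRed K F k Fb) where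
  P : Divisor K F
  P' : Divisor K F
  P₁ : Divisor k Fb
  P₂ : Divisor k Fb
  P₁' : Divisor k Fb
  P₂' : Divisor k Fb
  P_nonneg : 0 ≤ P
  P'_nonneg : 0 ≤ P'
  P₁_nonneg : 0 ≤ P₁
  P₂_nonneg : 0 ≤ P₂
  P₁'_nonneg : 0 ≤ P₁'
  P₂'_nonneg : 0 ≤ P₂'
  disj : ∀ v, P v = 0 ∨ P' v = 0
  disj₁ : ∀ Q, P₁ Q = 0 ∨ P₁' Q = 0
  disj₂ : ∀ Q, P₂ Q = 0 ∨ P₂' Q = 0
  deg_P : Divisor.degree P = Divisor.degree P₁ + Divisor.degree P₂
  deg_P' : Divisor.degree P' = Divisor.degree P₁' + Divisor.degree P₂'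
  deg_P₁ : 0 < Divisor.degree P₁
  deg_P₂ : 0 < Divisor.degree P₂
  deg_P₁' : 0 < Divisor.degree P₁'
  deg_P₂' : 0 < Divisor.degree P₂'
  /-- pole bounds -/
  pole : ∀ (a b : ℕ) (u : T.O), (u : F) ∈ riemannRochSpace (a • P + b • P') →
    (T.red u).1 ∈ riemannRochSpace (a • P₁ + b • P₁') ∧
    (T.red u).2 ∈ riemannRochSpace (a • P₂ + b • P₂')
  /-- the index set of the nodes -/
  S : Type
  fin : Fintype S
  x₁ : S → Place k Fb
  x₂ : S → Place k Fb
  x₁_inj : Function.Injective x₁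
  x₂_inj : Function.Injective x₂
  avoid₁ : ∀ s, P₁ (x₁ s) = 0 ∧ P₁' (x₁ s) = 0
  avoid₂ : ∀ s, P₂ (x₂ s) = 0 ∧ P₂' (x₂ s) = 0
  /-- integral functions take equal values at the two branches of a node -/
  glue : ∀ (a b : ℕ) (u : T.O), (u : F) ∈ riemannRochSpace (a • P + b • P') →
    ∀ s, ∃ c : k, HasVal (x₁ s) (T.red u).1 c ∧ HasVal (x₂ s) (T.red u).2 c
  /-- the number of nodes is `g - 2 gb + 1` -/
  card : (Fintype.card S : ℤ) = gR K F - 2 * gR k Fb + 1
  /-- reduction does not lose dimension -/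
  on2 : ∀ V : Submodule K F, FiniteDimensional K V →
    Module.finrank K V ≤ Module.finrank k (T.redSub V)
  /-- the valuation of `K` has rank one -/
  arch : ∀ π c : K, c ≠ 0 → π ∈ T.A → π⁻¹ ∉ T.A → ∃ n : ℕ, π ^ n * c⁻¹ ∈ T.A

attribute [instance] NodalData.fin

namespace NodalData

variable {T : TwoRed K F k Fb} (𝒩 : NodalData T)

/-- the divisor `a P + b P'` -/
def X (a b : ℕ) : Divisor K F := a • 𝒩.P + b • 𝒩.P'

def X₁ (a b : ℕ) : Divisor k Fb := a • 𝒩.P₁ + b • 𝒩.P₁'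

def X₂ (a b : ℕ) : Divisor k Fb := a • 𝒩.P₂ + b • 𝒩.P₂'

/-- sections over the nodal curve with gluing datum `ζ` and poles bounded by `a P + b P'` -/
def M (ζ : 𝒩.S → k) (a b : ℕ) : Set (Fb × Fb) :=
  matchSet 𝒩.x₁ 𝒩.x₂ ζ (𝒩.X₁ a b) (𝒩.X₂ a b)

/-- the reduction of the twisted Riemann-Roch space `L(D + a P + b P')` -/
def W (D : Divisor K F) (a b : ℕ) : Submodule k (Fb × Fb) :=
  T.redSub (riemannRochSpace (D + 𝒩.X a b))

end NodalData

/-- `D` is a degree zero divisor with `m D = div f`, `f` a unit for both valuations with reduction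
`(1, 1)`. -/
structure IsOne (T : TwoRed K F k Fb) (m : ℕ) (D : Divisor K F) (f : T.O) : Prop where
  deg : Divisor.degree D = 0
  ord : ∀ v : Place K F, (m : ℤ) * D v = v.ord (f : F)
  red : T.red f = 1

/-- A class of `Pic⁰` killed by `m` is *toric* if it is represented by `D` with `m D = div f`,
`f` a unit for both valuations whose two reductions are `m`-th powers. -/
def IsToric (T : TwoRed K F k Fb) (m : ℕ) (x : Pic0 K F) : Prop :=
  ∃ (D : Divisor.degZero (K := K) (F := F)) (f : T.O) (a₁ a₂ : Fb), x = Pic0.mk D ∧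
    (∀ v : Place K F, (m : ℤ) * (D : Divisor K F) v = v.ord (f : F)) ∧ a₁ ≠ 0 ∧ a₂ ≠ 0 ∧
    T.red f = (a₁ ^ m, a₂ ^ m)

/-- A semilinear automorphism `g` of `F / K` compatible with the two reductions, inducing `φ` on
`Fb / k`, preserving the valuation of `K`, fixing the chart `P` and the nodes. -/
structure IsCompat {T : TwoRed K F k Fb} (𝒩 : NodalData T) (g : SemilinearAut K F)
    (φ : SemilinearAut k Fb) : Prop where
  mem₁ : ∀ u : T.R₁.O, g • (u : F) ∈ T.R₁.O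
  red₁ : ∀ u : T.R₁.O, T.R₁.red ⟨g • (u : F), mem₁ u⟩ = φ • T.R₁.red u
  mem₂ : ∀ u : T.R₂.O, g • (u : F) ∈ T.R₂.O
  red₂ : ∀ u : T.R₂.O, T.R₂.red ⟨g • (u : F), mem₂ u⟩ = φ • T.R₂.red u
  unit : ∀ c : K, c ≠ 0 → SemilinearAut.baseAut g c * c⁻¹ ∈ T.A
  P : g • 𝒩.P = 𝒩.P
  x₁ : ∀ s, φ • 𝒩.x₁ s = 𝒩.x₁ s
  x₂ : ∀ s, φ • 𝒩.x₂ s = 𝒩.x₂ s

theorem IsCompat.mem {T : TwoRed K F k Fb} {𝒩 : NodalData T} {g : SemilinearAut K F}
    {φ : SemilinearAut k Fb} (h : IsCompat 𝒩 g φ) (u : T.O) : g • (u : F) ∈ T.O :=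
  ⟨h.mem₁ ⟨u, u.2.1⟩, h.mem₂ ⟨u, u.2.2⟩⟩

theorem IsCompat.red {T : TwoRed K F k Fb} {𝒩 : NodalData T} {g : SemilinearAut K F}
    {φ : SemilinearAut k Fb} (h : IsCompat 𝒩 g φ) (u : T.O) :
    T.red ⟨g • (u : F), h.mem u⟩ = (φ • (T.red u).1, φ • (T.red u).2) :=
  Prod.ext (h.red₁ ⟨u, u.2.1⟩) (h.red₂ ⟨u, u.2.2⟩)

end

end Fermat.Agent.SS
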