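import Fermat.Agent.SS.Abs.Defs

/-!
# SS / abstract part, leaf [EV] : values of functions at places
-/

set_option autoImplicit false

open AlgebraicCurve

namespace Fermat.Agent.SS

open Fermat.Agent.RED Fermat.Agent.S24

variable {k Fb : Type*} [Field k] [Field Fb] [Algebra k Fb] (Q : Place k Fb)

/-- `z` lies in the maximal ideal of `Q`. -/
def PosAt (z : Fb) : Prop := z = 0 ∨ 0 < Q.ord z

theorem hasVal_iff_posAt {u : Fb} {c : k} : HasVal Q u c ↔ PosAt Q (u - algebraMap k Fb c) := by
  unfold HasVal PosAt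
  rw [sub_eq_zero]

namespace PosAt

variable {Q} {z w : Fb}

theorem zero : PosAt Q 0 := Or.inl rfl

theorem add (hz : PosAt Q z) (hw : PosAt Q w) : PosAt Q (z + w) := by
  rcases hz with rfl | hz
  · simpa using hw
  rcases hw with rfl | hw
  · rw [add_zero]; exact Or.inr hz
  by_cases h0 : z + w = 0
  · exact Or.inl h0
  have hz0 : z ≠ 0 := by rintro rfl; simp at hz
  have hw0 : w ≠ 0 := by rintro rfl; simp at hw
  have := Place.ord_add_ge Q hz0 hw0 h0
  exact Or.inr (lt_of_lt_of_le (lt_min hz hw) this)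

theorem neg (hz : PosAt Q z) : PosAt Q (-z) := by
  rcases hz with rfl | hz
  · simpa using zero
  · exact Or.inr (by rwa [Place.ord_neg])

theorem sub (hz : PosAt Q z) (hw : PosAt Q w) : PosAt Q (z - w) := by
  rw [sub_eq_add_neg]; exact hz.add hw.neg

theorem mul (hz : PosAt Q z) (hw : 0 ≤ Q.ord w) : PosAt Q (z * w) := by
  rcases hz with rfl | hz
  · simpa using zero
  rcases eq_or_ne w 0 with rfl | hw0
  · simpa using zero
  have hz0 : z ≠ 0 := by rintro rfl; simp at hz
  refine Or.inr ?_
  rw [Q.ord_mul hz0 hw0]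
  omega

theorem not_const {c : k} (hc : c ≠ 0) : ¬ PosAt Q (algebraMap k Fb c) := by
  rintro (h | h)
  · exact hc (by simpa using h)
  · rw [Place.ord_algebraMap] at h; exact lt_irrefl _ h

theorem ord_nonneg (hz : PosAt Q z) : 0 ≤ Q.ord z := by
  rcases hz with rfl | hz
  · simp
  · exact hz.le

end PosAt

namespace HasVal

variable {Q} {u v : Fb} {c d : k}

theorem unique (h : HasVal Q u c) (h' : HasVal Q u d) : c = d := by
  rw [hasVal_iff_posAt] at h h'
  by_contra hne
  have h1 := h'.sub h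
  have h2 : u - algebraMap k Fb d - (u - algebraMap k Fb c) = algebraMap k Fb (c - d) := by
    rw [map_sub]; ring
  rw [h2] at h1
  exact PosAt.not_const (sub_ne_zero.2 hne) h1

theorem const (c : k) : HasVal Q (algebraMap k Fb c) c := Or.inl rfl

theorem add (h : HasVal Q u c) (h' : HasVal Q v d) : HasVal Q (u + v) (c + d) := by
  rw [hasVal_iff_posAt] at h h' ⊢
  have := h.add h'
  rwa [show u - algebraMap k Fb c + (v - algebraMap k Fb d) = u + v - algebraMap k Fb (c + d) by
    rw [map_add]; ring] at this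

theorem neg (h : HasVal Q u c) : HasVal Q (-u) (-c) := by
  rw [hasVal_iff_posAt] at h ⊢
  have := h.neg
  rwa [show -(u - algebraMap k Fb c) = -u - algebraMap k Fb (-c) by
    rw [map_neg]; ring] at this

theorem sub (h : HasVal Q u c) (h' : HasVal Q v d) : HasVal Q (u - v) (c - d) := by
  rw [sub_eq_add_neg, sub_eq_add_neg]; exact h.add h'.neg

theorem ord_nonneg (h : HasVal Q u c) : 0 ≤ Q.ord u := by
  rw [hasVal_iff_posAt] at h
  rcases h with h | h
  · rw [sub_eq_zero.1 h, Place.ord_algebraMap]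
  rcases eq_or_ne c 0 with rfl | hc
  · simpa using h.le
  have h0 : u - algebraMap k Fb c ≠ 0 := by intro h0; rw [h0] at h; simp at h
  have hc0 : algebraMap k Fb c ≠ 0 := by simpa using hc
  have := Place.ord_add_eq_of_lt Q hc0 h0 (by rwa [Place.ord_algebraMap])
  rw [add_sub_cancel, Place.ord_algebraMap] at this
  exact this.ge

theorem ord_eq_zero (h : HasVal Q u c) (hc : c ≠ 0) : Q.ord u = 0 := by
  rw [hasVal_iff_posAt] at h
  rcases h with h | h
  · rw [sub_eq_zero.1 h, Place.ord_algebraMap]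
  have h0 : u - algebraMap k Fb c ≠ 0 := by intro h0; rw [h0] at h; simp at h
  have hc0 : algebraMap k Fb c ≠ 0 := by simpa using hc
  have := Place.ord_add_eq_of_lt Q hc0 h0 (by rwa [Place.ord_algebraMap])
  rwa [add_sub_cancel, Place.ord_algebraMap] at this

theorem ne_zero (h : HasVal Q u c) (hc : c ≠ 0) : u ≠ 0 := by
  rintro rfl
  have := h.unique (by simpa using const (Q := Q) (0 : k))
  exact hc this

theorem mul (h : HasVal Q u c) (h' : HasVal Q v d) : HasVal Q (u * v) (c * d) := by
  have hv := h'.ord_nonneg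
  rw [hasVal_iff_posAt] at h h' ⊢
  have h1 := h.mul hv
  have h2 := h'.mul (w := algebraMap k Fb c) (by rw [Place.ord_algebraMap])
  have := h1.add h2
  rwa [show (u - algebraMap k Fb c) * v + (v - algebraMap k Fb d) * algebraMap k Fb c
      = u * v - algebraMap k Fb (c * d) by rw [map_mul]; ring] at this

theorem smul (a : k) (h : HasVal Q u c) : HasVal Q (a • u) (a * c) := by
  rw [Algebra.smul_def]; exact (const a).mul h

theorem pow (h : HasVal Q u c) (n : ℕ) : HasVal Q (u ^ n) (c ^ n) := by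
  induction n with
  | zero => simpa using const (Q := Q) (1 : k)
  | succ n ih => rw [pow_succ, pow_succ]; exact ih.mul h

theorem inv (h : HasVal Q u c) (hc : c ≠ 0) : HasVal Q u⁻¹ c⁻¹ := by
  have hu0 := h.ne_zero hc
  have hord := h.ord_eq_zero hc
  have hc0 : algebraMap k Fb c ≠ 0 := by simpa using hc
  rw [hasVal_iff_posAt] at h ⊢
  have h1 := h.neg.mul (w := u⁻¹ * (algebraMap k Fb c)⁻¹) (by
    rw [Q.ord_mul (inv_ne_zero hu0) (inv_ne_zero hc0), Q.ord_inv, Q.ord_inv, hord,
      Place.ord_algebraMap]; simp)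
  rwa [show -(u - algebraMap k Fb c) * (u⁻¹ * (algebraMap k Fb c)⁻¹)
      = u⁻¹ - algebraMap k Fb c⁻¹ by rw [map_inv₀]; field_simp; ring] at h1

theorem smul_aut (φ : SemilinearAut k Fb) (h : HasVal Q u c) :
    HasVal (φ • Q) (φ • u) (SemilinearAut.baseAut φ c) := by
  rcases h with h | h
  · left
    rw [h, SemilinearAut.smul_algebraMap]
  · right
    rw [← SemilinearAut.smul_algebraMap, ← smul_sub, SemilinearAut.ord_smul]
    exact h

end HasVal

theorem hasVal_zero_iff {u : Fb} : HasVal Q u 0 ↔ u = 0 ∨ 0 < Q.ord u := by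
  unfold HasVal
  simp

theorem exists_hasVal [IsAlgClosed k] {t : Fb} (hb : IsSepParam k t) {u : Fb}
    (hu : 0 ≤ Q.ord u) : ∃ c : k, HasVal Q u c := by
  rcases eq_or_ne u 0 with rfl | hu0
  · exact ⟨0, by simpa using HasVal.const (Q := Q) (0 : k)⟩
  · exact hb.exists_value Q ((Place.mem_iff_ord_nonneg Q hu0).2 hu)

/-- elements of `L(E)` are regular at the places outside the support of `E` -/
theorem exists_hasVal_of_mem_L [IsAlgClosed k] {t : Fb} (hb : IsSepParam k t) {E : Divisor k Fb}
    (hE : E Q = 0) {u : Fb} (hu : u ∈ riemannRochSpace E) : ∃ c : k, HasVal Q u c := by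
  apply exists_hasVal Q hb
  rcases (mem_L_iff.1 hu) with rfl | h
  · simp
  · simpa [hE] using h Q

theorem hasVal_pval {u : Fb} {c : k} (h : HasVal Q u c) : pval Q u = c := by
  have hex : ∃ c : k, u = algebraMap k Fb c ∨ 0 < Q.ord (u - algebraMap k Fb c) := ⟨c, h⟩
  unfold pval
  rw [dif_pos hex]
  exact HasVal.unique (Q := Q) (u := u) hex.choose_spec h

end Fermat.Agent.SS
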