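import Fermat.Agent.SS.Abs.Defs

/-!
# SS / abstract part, leaf [LAT] : lattices `V ∩ O` in finite dimensional subspaces of `F`
-/

set_option autoImplicit false

open AlgebraicCurve

namespace Fermat.Agent.SS

open Fermat.Agent.RED Fermat.Agent.S24

variable {K F k Fb : Type*} [Field K] [Field F] [Algebra K F] [Field k] [Field Fb] [Algebra k Fb]

namespace TwoRed

variable (T : TwoRed K F k Fb)

theorem mem_A {c : K} : c ∈ T.A ↔ algebraMap K F c ∈ T.R₁.O := Iff.rfl

theorem algebraMap_mem_O {c : K} (hc : c ∈ T.A) : algebraMap K F c ∈ T.O :=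
  ⟨hc, (T.const_mem c).1 hc⟩

/-- the residue map of the constants -/
theorem exists_red_const {c : K} (hc : c ∈ T.A) :
    ∃ a : k, T.red ⟨algebraMap K F c, T.algebraMap_mem_O hc⟩ =
      (algebraMap k Fb a, algebraMap k Fb a) := by
  obtain ⟨a, ha⟩ := T.R₁.red_const c hc
  exact ⟨a, Prod.ext ha ((T.const_red c hc ((T.const_mem c).1 hc)).symm.trans ha)⟩

/-- a constant of the maximal ideal reduces to `0` -/
theorem red_const_eq_zero {c : K} (hc : c ∈ T.A) (hc' : c⁻¹ ∉ T.A) :
    T.red ⟨algebraMap K F c, T.algebraMap_mem_O hc⟩ = 0 := by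
  have h1 : T.R₁.red ⟨algebraMap K F c, hc⟩ = 0 := by
    by_contra h
    have := T.R₁.inv_mem_of_red_ne_zero h
    apply hc'
    rw [mem_A, map_inv₀]
    exact this
  exact Prod.ext h1 ((T.const_red c hc ((T.const_mem c).1 hc)).symm.trans h1)

theorem red_const_mul {c : K} (hc : c ∈ T.A) (u : T.O) (h : algebraMap K F c * (u : F) ∈ T.O) :
    T.red ⟨algebraMap K F c * (u : F), h⟩ =
      T.red ⟨algebraMap K F c, T.algebraMap_mem_O hc⟩ * T.red u := by
  rw [← map_mul]
  rfl

theorem const_mul_mem_O {c : K} (hc : c ∈ T.A) {u : F} (hu : u ∈ T.O) :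
    algebraMap K F c * u ∈ T.O :=
  T.O.mul_mem (T.algebraMap_mem_O hc) hu

/-- sup-norm normalisation -/
theorem exists_scale {f : F} (hf : f ≠ 0) :
    ∃ (c : K) (h : algebraMap K F c * f ∈ T.O), c ≠ 0 ∧ T.red ⟨_, h⟩ ≠ 0 := by
  obtain ⟨c₁, h₁, hr₁⟩ := T.R₁.exists_scale f hf
  obtain ⟨c₂, h₂, hr₂⟩ := T.R₂.exists_scale f hf
  have hc₁ : c₁ ≠ 0 := by
    rintro rfl
    apply hr₁
    have : (⟨algebraMap K F 0 * f, h₁⟩ : T.R₁.O) = 0 := Subtype.ext (by simp)
    rw [this, map_zero]
  have hc₂ : c₂ ≠ 0 := by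
    rintro rfl
    apply hr₂
    have : (⟨algebraMap K F 0 * f, h₂⟩ : T.R₂.O) = 0 := Subtype.ext (by simp)
    rw [this, map_zero]
  rcases T.A.mem_or_inv_mem (c₁ / c₂) with h | h
  · have h3 : algebraMap K F c₁ * f ∈ T.R₂.O := by
      have : algebraMap K F c₁ * f = algebraMap K F (c₁ / c₂) * (algebraMap K F c₂ * f) := by
        rw [← mul_assoc, ← map_mul, div_mul_cancel₀ _ hc₂]
      rw [this]
      exact mul_mem ((T.const_mem _).1 h) h₂
    exact ⟨c₁, ⟨h₁, h3⟩, hc₁, fun h0 => hr₁ (congrArg Prod.fst h0)⟩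
  · rw [inv_div] at h
    have h3 : algebraMap K F c₂ * f ∈ T.R₁.O := by
      have : algebraMap K F c₂ * f = algebraMap K F (c₂ / c₁) * (algebraMap K F c₁ * f) := by
        rw [← mul_assoc, ← map_mul, div_mul_cancel₀ _ hc₁]
      rw [this]
      exact mul_mem (show algebraMap K F (c₂ / c₁) ∈ T.R₁.O from h) h₁
    exact ⟨c₂, ⟨h3, h₂⟩, hc₂, fun h0 => hr₂ (congrArg Prod.snd h0)⟩

/-- the kernel of the reduction is `𝔪_A • O` -/
theorem exists_eq_smul_of_red_eq_zero {u : T.O} (hu : T.red u = 0) :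
    ∃ (π : K) (u' : T.O), (π = 0 ∨ π⁻¹ ∉ T.A) ∧ (u : F) = algebraMap K F π * (u' : F) := by
  rcases eq_or_ne (u : F) 0 with h0 | h0
  · exact ⟨0, 0, Or.inl rfl, by simp [h0]⟩
  obtain ⟨c, h, hc, hr⟩ := T.exists_scale h0
  refine ⟨c⁻¹, ⟨_, h⟩, Or.inr ?_, ?_⟩
  · rw [inv_inv]
    intro hcA
    apply hr
    rw [T.red_const_mul hcA u h, hu, mul_zero]
  · rw [← mul_assoc, ← map_mul, inv_mul_cancel₀ hc, map_one, one_mul]

theorem mem_A_of_inv_notMem {c : K} (h : c⁻¹ ∉ T.A) : c ∈ T.A :=
  (T.A.mem_or_inv_mem c).resolve_right h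

/-- finitely many elements of the kernel: a common `π ≠ 0` -/
theorem exists_common_smul {ι : Type*} [Finite ι] (u : ι → T.O) (hu : ∀ i, T.red (u i) = 0)
    (hA : ∃ π₀ : K, π₀ ≠ 0 ∧ π₀ ∈ T.A ∧ π₀⁻¹ ∉ T.A) :
    ∃ (π : K) (u' : ι → T.O), π ≠ 0 ∧ π ∈ T.A ∧ π⁻¹ ∉ T.A ∧
      ∀ i, (u i : F) = algebraMap K F π * (u' i : F) := by
  classical
  have := Fintype.ofFinite ι
  obtain ⟨π₀, hπ₀, hπ₀A, hπ₀'⟩ := hA
  choose p v hp hv using fun i => T.exists_eq_smul_of_red_eq_zero (hu i)
  let g : Option ι → K := fun o => o.elim π₀ p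
  obtain ⟨j, -, hj0, hdiv⟩ := T.R₁.exists_pivot Finset.univ g ⟨none, Finset.mem_univ _, hπ₀⟩
  have hjm : (g j)⁻¹ ∉ T.A := by
    cases j with
    | none => exact hπ₀'
    | some i => exact (hp i).resolve_left hj0
  refine ⟨g j, fun i => ⟨algebraMap K F (p i / g j) * (v i : F),
    T.const_mul_mem_O (hdiv (some i) (Finset.mem_univ _)) (v i).2⟩, hj0,
    T.mem_A_of_inv_notMem hjm, hjm, fun i => ?_⟩
  rw [hv i]
  change _ = algebraMap K F (g j) * (algebraMap K F (p i / g j) * (v i : F))
  rw [← mul_assoc, ← map_mul, mul_div_cancel₀ _ hj0]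

/-- lifts of `k`-independent elements are `K`-independent -/
theorem linearIndependent_of_red {ι : Type*} (u : ι → T.O)
    (h : LinearIndependent k (fun i => T.red (u i))) :
    LinearIndependent K (fun i => (u i : F)) := by
  classical
  rw [linearIndependent_iff'] at h ⊢
  intro s g hg
  by_contra hcon
  push Not at hcon
  obtain ⟨j, hj, hj0, hdiv⟩ := T.R₁.exists_pivot s g hcon
  choose! a ha using fun (i : ι) (hi : i ∈ s) => T.exists_red_const (hdiv i hi)
  have h1 : ∑ i ∈ s.attach,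
      (⟨algebraMap K F (g i / g j), T.algebraMap_mem_O (hdiv i i.2)⟩ : T.O) * u i = 0 := by
    apply Subtype.ext
    have h0 : ((∑ i ∈ s.attach,
        (⟨algebraMap K F (g i / g j), T.algebraMap_mem_O (hdiv i i.2)⟩ : T.O) * u i : T.O) : F)
        = ∑ i ∈ s.attach, algebraMap K F (g i / g j) * (u i : F) := by
      rw [AddSubmonoidClass.coe_finsetSum]
      rfl
    rw [h0, Finset.sum_attach s (fun i => algebraMap K F (g i / g j) * (u i : F))]
    have : ∑ i ∈ s, algebraMap K F (g i / g j) * (u i : F)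
        = algebraMap K F (g j)⁻¹ * ∑ i ∈ s, g i • (u i : F) := by
      rw [Finset.mul_sum]
      refine Finset.sum_congr rfl fun i _ => ?_
      rw [Algebra.smul_def, ← mul_assoc, ← map_mul]
      congr 2
      field_simp
    rw [this, hg, mul_zero]
    rfl
  have h2 := congrArg T.red h1
  rw [map_zero, map_sum] at h2
  have h3 : ∑ i ∈ s, a i • T.red (u i) = 0 := by
    rw [← h2, ← Finset.sum_attach s]
    refine Finset.sum_congr rfl fun i _ => ?_
    rw [map_mul, ha i i.2]
    apply Prod.ext <;> simp [Algebra.smul_def]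
  have h4 := h s a h3 j hj
  have h5 := ha j hj
  rw [h4, map_zero] at h5
  have h6 : (⟨algebraMap K F (g j / g j), T.algebraMap_mem_O (hdiv j hj)⟩ : T.O) = 1 := by
    apply Subtype.ext
    simp [div_self hj0]
  rw [h6, map_one] at h5
  exact one_ne_zero (congrArg Prod.fst h5)

theorem finrank_redSub_le_aux (V : Submodule K F) [FiniteDimensional K V] :
    FiniteDimensional k (T.redSub V) ∧ Module.finrank k (T.redSub V) ≤ Module.finrank K V := by
  have key : ∀ (m : ℕ) (u : Fin m → T.redSub V), LinearIndependent k u →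
      m ≤ Module.finrank K V := by
    intro m u hu
    choose x hxV hx using fun i => (u i).2
    have h1 : LinearIndependent k (fun i => T.red (x i)) := by
      have : (fun i => T.red (x i)) = (T.redSub V).subtype ∘ u := by
        funext i; exact hx i
      rw [this]
      exact hu.map' _ (Submodule.ker_subtype _)
    have h2 := T.linearIndependent_of_red x h1
    have h3 : LinearIndependent K (fun i => (⟨(x i : F), hxV i⟩ : V)) := by
      refine LinearIndependent.of_comp V.subtype ?_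
      exact h2
    simpa using h3.fintype_card_le_finrank
  have hrank : Module.rank k (T.redSub V) ≤ (Module.finrank K V : ℕ) := by
    apply rank_le
    intro t ht
    have h1 : LinearIndependent k (fun i : Fin t.card => ((t.equivFin.symm i : t) : T.redSub V)) :=
      ht.comp _ t.equivFin.symm.injective
    exact key _ _ h1
  have hfd : FiniteDimensional k (T.redSub V) := by
    rw [FiniteDimensional, ← Module.rank_lt_aleph0_iff]
    exact lt_of_le_of_lt hrank (Cardinal.natCast_lt_aleph0)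
  exact ⟨hfd, Module.finrank_le_of_rank_le hrank⟩

theorem finrank_redSub_le (V : Submodule K F) [FiniteDimensional K V] :
    Module.finrank k (T.redSub V) ≤ Module.finrank K V :=
  (T.finrank_redSub_le_aux V).2

theorem finite_redSub (V : Submodule K F) [FiniteDimensional K V] :
    FiniteDimensional k (T.redSub V) :=
  (T.finrank_redSub_le_aux V).1

/-- Lifts of sufficiently many independent elements of the reduction generate `V ∩ O` over `A`. -/
theorem exists_coeff_of_lifts (V : Submodule K F) [FiniteDimensional K V] {n : ℕ}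
    (hn : Module.finrank K V ≤ n) (b : Fin n → T.O) (hb : ∀ i, (b i : F) ∈ V)
    (hli : LinearIndependent k (fun i => T.red (b i))) (u : T.O) (hu : (u : F) ∈ V) :
    ∃ c : Fin n → K, (∀ i, c i ∈ T.A) ∧ (u : F) = ∑ i, algebraMap K F (c i) * (b i : F) := by
  classical
  have h2 := T.linearIndependent_of_red b hli
  have h3 : LinearIndependent K (fun i => (⟨(b i : F), hb i⟩ : V)) :=
    LinearIndependent.of_comp V.subtype h2
  have hcard : Fintype.card (Fin n) = Module.finrank K V := by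
    have := h3.fintype_card_le_finrank
    simp only [Fintype.card_fin] at this ⊢
    omega
  let B := Module.Basis.mk h3 (h3.span_eq_top_of_card_eq_finrank' hcard).ge
  have hB : ∀ i, B i = ⟨(b i : F), hb i⟩ := fun i => by
    simp [B]
  let c : Fin n → K := fun i => B.repr ⟨u, hu⟩ i
  have hsum : (u : F) = ∑ i, algebraMap K F (c i) * (b i : F) := by
    have h := B.sum_repr ⟨u, hu⟩
    have h' := congrArg (Subtype.val) h
    rw [AddSubmonoidClass.coe_finsetSum] at h'
    rw [← h']
    refine Finset.sum_congr rfl fun i _ => ?_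
    rw [hB i]
    change c i • (b i : F) = _
    rw [Algebra.smul_def]
  refine ⟨c, ?_, hsum⟩
  by_contra hcon
  push Not at hcon
  obtain ⟨i₀, hi₀⟩ := hcon
  have hne : ∃ i ∈ (Finset.univ : Finset (Fin n)), c i ≠ 0 :=
    ⟨i₀, Finset.mem_univ _, fun h0 => hi₀ (h0 ▸ T.A.zero_mem)⟩
  obtain ⟨j, -, hj0, hdiv⟩ := T.R₁.exists_pivot Finset.univ c hne
  have hjA : c j ∉ T.A := by
    intro hj
    apply hi₀
    have : c i₀ = c i₀ / c j * c j := by rw [div_mul_cancel₀ _ hj0]
    rw [this]
    exact mul_mem (show c i₀ / c j ∈ T.A from hdiv i₀ (Finset.mem_univ _)) hj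
  have hjinv : (c j)⁻¹ ∈ T.A := (T.A.mem_or_inv_mem (c j)).resolve_left hjA
  have hred0 := T.red_const_eq_zero hjinv (by rwa [inv_inv])
  choose a ha using fun i => T.exists_red_const (hdiv i (Finset.mem_univ _))
  have e1 : (⟨algebraMap K F (c j)⁻¹, T.algebraMap_mem_O hjinv⟩ : T.O) * u =
      ∑ i, (⟨algebraMap K F (c i / c j), T.algebraMap_mem_O (hdiv i (Finset.mem_univ _))⟩ : T.O) *
        b i := by
    apply Subtype.ext
    rw [AddSubmonoidClass.coe_finsetSum]
    change algebraMap K F (c j)⁻¹ * (u : F) = ∑ i, algebraMap K F (c i / c j) * (b i : F)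
    rw [hsum, Finset.mul_sum]
    refine Finset.sum_congr rfl fun i _ => ?_
    rw [← mul_assoc, ← map_mul]
    congr 2
    field_simp
  have e2 := congrArg T.red e1
  rw [map_mul, hred0, zero_mul, map_sum] at e2
  have e3 : ∑ i, a i • T.red (b i) = 0 := by
    rw [e2]
    refine Finset.sum_congr rfl fun i _ => ?_
    rw [map_mul, ha i]
    apply Prod.ext <;> simp [Algebra.smul_def]
  have e4 := (Fintype.linearIndependent_iff.mp hli) a e3 j
  have e5 := ha j
  rw [e4, map_zero] at e5
  have e6 : (⟨algebraMap K F (c j / c j), T.algebraMap_mem_O (hdiv j (Finset.mem_univ _))⟩ : T.O)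
      = 1 := by
    apply Subtype.ext
    simp [div_self hj0]
  rw [e6, map_one] at e5
  exact one_ne_zero (congrArg Prod.fst e5)

/-- `V ∩ O` is a free `A`-module on lifts of a basis of its reduction. -/
theorem exists_basis (V : Submodule K F) [FiniteDimensional K V]
    (hV : Module.finrank K V ≤ Module.finrank k (T.redSub V)) :
    ∃ (n : ℕ) (b : Fin n → T.O), (∀ i, (b i : F) ∈ V) ∧
      LinearIndependent k (fun i => T.red (b i)) ∧
      (∀ u : T.O, (u : F) ∈ V → ∃ c : Fin n → K, (∀ i, c i ∈ T.A) ∧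
        (u : F) = ∑ i, algebraMap K F (c i) * (b i : F)) := by
  have := T.finite_redSub V
  let B := Module.finBasis k (T.redSub V)
  choose x hxV hx using fun i => (B i).2
  have hli : LinearIndependent k (fun i => T.red (x i)) := by
    have : (fun i => T.red (x i)) = (T.redSub V).subtype ∘ B := by
      funext i; exact hx i
    rw [this]
    exact B.linearIndependent.map' _ (Submodule.ker_subtype _)
  exact ⟨_, x, hxV, hli, fun u hu => T.exists_coeff_of_lifts V hV x hxV hli u hu⟩

/-- Nakayama: if the reductions of `V₁`, `V₂` span the reduction of `V` then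
`V ∩ O = V₁ ∩ O + V₂ ∩ O`. -/
theorem exists_add_of_redSub_sup (V V₁ V₂ : Submodule K F) [FiniteDimensional K V]
    (h₁ : V₁ ≤ V) (h₂ : V₂ ≤ V)
    (hV : Module.finrank K V ≤ Module.finrank k (T.redSub V))
    (hsup : T.redSub V ≤ T.redSub V₁ ⊔ T.redSub V₂) (u : T.O) (hu : (u : F) ∈ V) :
    ∃ u₁ u₂ : T.O, (u₁ : F) ∈ V₁ ∧ (u₂ : F) ∈ V₂ ∧ u = u₁ + u₂ := by
  have := T.finite_redSub V
  let B := Module.finBasis k (T.redSub V)
  have hdec : ∀ i, ∃ x y : T.O, (x : F) ∈ V₁ ∧ (y : F) ∈ V₂ ∧ T.red (x + y) = (B i : Fb × Fb) := by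
    intro i
    obtain ⟨w₁, ⟨x, hx, rfl⟩, w₂, ⟨y, hy, rfl⟩, hw⟩ := Submodule.mem_sup.mp (hsup (B i).2)
    exact ⟨x, y, hx, hy, by rw [map_add, hw]⟩
  choose x y hx hy hxy using hdec
  have hli : LinearIndependent k (fun i => T.red (x i + y i)) := by
    have : (fun i => T.red (x i + y i)) = (T.redSub V).subtype ∘ B := by
      funext i; exact hxy i
    rw [this]
    exact B.linearIndependent.map' _ (Submodule.ker_subtype _)
  obtain ⟨c, hc, hsum⟩ := T.exists_coeff_of_lifts V hV (fun i => x i + y i)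
    (fun i => V.add_mem (h₁ (hx i)) (h₂ (hy i))) hli u hu
  refine ⟨∑ i, (⟨algebraMap K F (c i), T.algebraMap_mem_O (hc i)⟩ : T.O) * x i,
    ∑ i, (⟨algebraMap K F (c i), T.algebraMap_mem_O (hc i)⟩ : T.O) * y i, ?_, ?_, ?_⟩
  · rw [AddSubmonoidClass.coe_finsetSum]
    refine V₁.sum_mem fun i _ => ?_
    change algebraMap K F (c i) * (x i : F) ∈ V₁
    rw [← Algebra.smul_def]
    exact V₁.smul_mem _ (hx i)
  · rw [AddSubmonoidClass.coe_finsetSum]
    refine V₂.sum_mem fun i _ => ?_
    change algebraMap K F (c i) * (y i : F) ∈ V₂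
    rw [← Algebra.smul_def]
    exact V₂.smul_mem _ (hy i)
  · apply Subtype.ext
    rw [← Finset.sum_add_distrib, AddSubmonoidClass.coe_finsetSum, hsum]
    refine Finset.sum_congr rfl fun i _ => ?_
    change algebraMap K F (c i) * ((x i : F) + (y i : F)) =
      algebraMap K F (c i) * (x i : F) + algebraMap K F (c i) * (y i : F)
    ring

end TwoRed

end Fermat.Agent.SS
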