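import Fermat.Agent.SS.Abs.Ev

/-!
# SS / abstract part, leaf [MDIM] : the spaces `M ζ a b` of sections on the nodal curve
(linear algebra over `k` with Riemann's theorem on `Fb`; nothing about `F`)
-/

set_option autoImplicit false

open AlgebraicCurve

namespace Fermat.Agent.SS

open Fermat.Agent.RED Fermat.Agent.S24

variable {K F k Fb : Type*} [Field K] [Field F] [Algebra K F] [Field k] [Field Fb] [Algebra k Fb]

/-! ### evaluation of `L(E)` at finitely many places -/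

section Eval

variable {S : Type*} [Fintype S]

/-- the sum of the places `x s` -/
noncomputable def sumPts (x : S → Place k Fb) : Divisor k Fb := ∑ s, Finsupp.single (x s) 1

theorem sumPts_apply_self {x : S → Place k Fb} (hx : Function.Injective x) (s : S) :
    sumPts x (x s) = 1 := by
  classical
  unfold sumPts
  rw [Finsupp.finsetSum_apply, Finset.sum_eq_single s]
  · simp
  · intro s' _ hs'
    exact Finsupp.single_eq_of_ne (fun h => hs' (hx h.symm))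
  · intro h; exact absurd (Finset.mem_univ s) h

theorem sumPts_apply_of_ne {x : S → Place k Fb} {Q : Place k Fb} (hQ : ∀ s, x s ≠ Q) :
    sumPts x Q = 0 := by
  classical
  unfold sumPts
  rw [Finsupp.finsetSum_apply]
  exact Finset.sum_eq_zero fun s _ => Finsupp.single_eq_of_ne (fun h => hQ s h.symm)

theorem sumPts_nonneg (x : S → Place k Fb) : 0 ≤ sumPts x :=
  Finset.sum_nonneg fun s _ => by
    classical
    intro Q
    by_cases h : Q = x s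
    · subst h; simp
    · rw [Finsupp.single_eq_of_ne h]; rfl

variable [IsAlgClosed k] {t : Fb}

theorem degree_sumPts (hb : IsSepParam k t) (x : S → Place k Fb) :
    Divisor.degree (sumPts x) = Fintype.card S := by
  unfold sumPts
  rw [map_sum]
  simp [hb.degree_single]

/-- evaluation at the places `x s` -/
noncomputable def evL (hb : IsSepParam k t) (x : S → Place k Fb) (E : Divisor k Fb)
    (hE : ∀ s, E (x s) = 0) : riemannRochSpace E →ₗ[k] (S → k) where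
  toFun u s := pval (x s) (u : Fb)
  map_add' u v := by
    ext s
    obtain ⟨c, hc⟩ := exists_hasVal_of_mem_L (x s) hb (hE s) u.2
    obtain ⟨d, hd⟩ := exists_hasVal_of_mem_L (x s) hb (hE s) v.2
    simp only [Submodule.coe_add, Pi.add_apply]
    rw [hasVal_pval _ hc, hasVal_pval _ hd, hasVal_pval _ (hc.add hd)]
  map_smul' a u := by
    ext s
    obtain ⟨c, hc⟩ := exists_hasVal_of_mem_L (x s) hb (hE s) u.2
    simp only [Submodule.coe_smul, Pi.smul_apply, RingHom.id_apply, smul_eq_mul]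
    rw [hasVal_pval _ hc, hasVal_pval _ (hc.smul a)]

omit [Fintype S] in
theorem hasVal_evL (hb : IsSepParam k t) (x : S → Place k Fb) (E : Divisor k Fb)
    (hE : ∀ s, E (x s) = 0) (u : riemannRochSpace E) (s : S) :
    HasVal (x s) (u : Fb) (evL hb x E hE u s) := by
  obtain ⟨c, hc⟩ := exists_hasVal_of_mem_L (x s) hb (hE s) u.2
  have : evL hb x E hE u s = c := hasVal_pval _ hc
  rw [this]; exact hc

theorem ker_evL (hb : IsSepParam k t) {x : S → Place k Fb} (hx : Function.Injective x)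
    (E : Divisor k Fb) (hE : ∀ s, E (x s) = 0) :
    LinearMap.ker (evL hb x E hE) =
      (riemannRochSpace (E - sumPts x)).comap (riemannRochSpace E).subtype := by
  ext u
  rw [LinearMap.mem_ker, Submodule.mem_comap, Submodule.subtype_apply]
  constructor
  · intro h
    rcases eq_or_ne (u : Fb) 0 with h0 | h0
    · rw [h0]; exact Submodule.zero_mem _
    rw [mem_L_iff_of_ne_zero h0]
    have hu := (mem_L_iff_of_ne_zero h0).1 u.2
    intro Q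
    rw [Finsupp.sub_apply]
    by_cases hQ : ∃ s, x s = Q
    · obtain ⟨s, rfl⟩ := hQ
      rw [sumPts_apply_self hx, hE]
      have h1 := hasVal_evL hb x E hE u s
      rw [h] at h1
      have h2 := (hasVal_zero_iff _).1 h1
      rcases h2 with h2 | h2
      · exact absurd h2 h0
      · omega
    · push Not at hQ
      rw [sumPts_apply_of_ne hQ, sub_zero]
      exact hu Q
  · intro h
    ext s
    have h1 := hasVal_evL hb x E hE u s
    refine h1.unique ((hasVal_zero_iff _).2 ?_)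
    rcases eq_or_ne (u : Fb) 0 with h0 | h0
    · exact Or.inl h0
    right
    have := (mem_L_iff_of_ne_zero h0).1 h (x s)
    rw [Finsupp.sub_apply, sumPts_apply_self hx, hE] at this
    omega

theorem evL_surjective (hb : IsSepParam k t) {x : S → Place k Fb} (hx : Function.Injective x)
    (E : Divisor k Fb) (hE : ∀ s, E (x s) = 0) {g : ℤ}
    (h1 : (ell E : ℤ) = Divisor.degree E + 1 - g)
    (h2 : (ell (E - sumPts x) : ℤ) = Divisor.degree (E - sumPts x) + 1 - g) :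
    Function.Surjective (evL hb x E hE) := by
  have := hb.finite_L E
  rw [← LinearMap.range_eq_top]
  apply Submodule.eq_top_of_finrank_eq
  have h3 := LinearMap.finrank_range_add_finrank_ker (evL hb x E hE)
  rw [ker_evL hb hx] at h3
  have hle : riemannRochSpace (E - sumPts x) ≤ riemannRochSpace E :=
    L_mono (sub_le_self _ (sumPts_nonneg x))
  rw [(Submodule.comapSubtypeEquivOfLe hle).finrank_eq] at h3
  rw [map_sub, degree_sumPts hb] at h2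
  rw [Module.finrank_fintype_fun_eq_card]
  unfold ell at h1 h2
  omega

end Eval


theorem mem_L_min {A B : Divisor k Fb} (hd : ∀ Q, A Q = 0 ∨ B Q = 0)
    {a b a' b' : ℕ} {u : Fb} (h : u ∈ riemannRochSpace (a • A + b • B))
    (h' : u ∈ riemannRochSpace (a' • A + b' • B)) :
    u ∈ riemannRochSpace (min a a' • A + min b b' • B) := by
  rw [mem_L_iff] at h h' ⊢
  rcases h with h | h
  · exact Or.inl h
  rcases h' with h' | h'
  · exact Or.inl h'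
  right
  intro Q
  have h1 := h Q
  have h2 := h' Q
  simp only [Finsupp.add_apply, Finsupp.smul_apply, nsmul_eq_mul] at h1 h2 ⊢
  rcases hd Q with h0 | h0
  · rw [h0] at h1 h2 ⊢
    rcases le_total b b' with hbb | hbb
    · rw [min_eq_left hbb]; simpa using h1
    · rw [min_eq_right hbb]; simpa using h2
  · rw [h0] at h1 h2 ⊢
    rcases le_total a a' with hbb | hbb
    · rw [min_eq_left hbb]; simpa using h1
    · rw [min_eq_right hbb]; simpa using h2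

namespace NodalData

variable {T : TwoRed K F k Fb} (𝒩 : NodalData T)

/-- `n` is large: Riemann's theorem holds with equality in degree `≥ n` on `F` and in degree
`≥ n - #nodes` on `Fb`. -/
def IsLarge (n : ℕ) : Prop :=
  (∀ D : Divisor K F, (n : ℤ) ≤ Divisor.degree D →
    (Module.finrank K (riemannRochSpace D) : ℤ) = Divisor.degree D + 1 - gR K F) ∧
  (∀ E : Divisor k Fb, (n : ℤ) - Fintype.card 𝒩.S ≤ Divisor.degree E →
    (Module.finrank k (riemannRochSpace E) : ℤ) = Divisor.degree E + 1 - gR k Fb)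

theorem IsLarge.mono {n n' : ℕ} (h : 𝒩.IsLarge n) (hn : n ≤ n') : 𝒩.IsLarge n' :=
  ⟨fun D hD => h.1 D (le_trans (by exact_mod_cast hn) hD),
    fun E hE => h.2 E (le_trans (by have : (n : ℤ) ≤ n' := by exact_mod_cast hn
                                    linarith) hE)⟩

theorem exists_isLarge [IsAlgClosed K] [IsAlgClosed k] {x : F} {t : Fb} (hx : IsSepParam K x)
    (hb : IsSepParam k t) : ∃ n, 𝒩.IsLarge n := by
  obtain ⟨c₁, h₁⟩ := hx.exists_riemann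
  obtain ⟨c₂, h₂⟩ := hb.exists_riemann
  refine ⟨max c₁.toNat (c₂ + Fintype.card 𝒩.S).toNat, fun D hD => h₁ D ?_, fun E hE => h₂ E ?_⟩
  · have := Int.self_le_toNat c₁
    have h3 : (c₁.toNat : ℤ) ≤ (max c₁.toNat (c₂ + Fintype.card 𝒩.S).toNat : ℕ) := by
      exact_mod_cast le_max_left _ _
    omega
  · have := Int.self_le_toNat (c₂ + Fintype.card 𝒩.S)
    have h3 : ((c₂ + Fintype.card 𝒩.S).toNat : ℤ) ≤
        (max c₁.toNat (c₂ + Fintype.card 𝒩.S).toNat : ℕ) := by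
      exact_mod_cast le_max_right _ _
    omega

theorem degree_X_eq (a b : ℕ) : Divisor.degree (𝒩.X a b) =
    a * Divisor.degree 𝒩.P + b * Divisor.degree 𝒩.P' := by
  simp [X, map_add, map_nsmul]

theorem degree_X₁_eq (a b : ℕ) : Divisor.degree (𝒩.X₁ a b) =
    a * Divisor.degree 𝒩.P₁ + b * Divisor.degree 𝒩.P₁' := by
  simp [X₁, map_add, map_nsmul]

theorem degree_X₂_eq (a b : ℕ) : Divisor.degree (𝒩.X₂ a b) =
    a * Divisor.degree 𝒩.P₂ + b * Divisor.degree 𝒩.P₂' := by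
  simp [X₂, map_add, map_nsmul]

theorem le_degree_X (a b : ℕ) : ((a + b : ℕ) : ℤ) ≤ Divisor.degree (𝒩.X a b) := by
  rw [degree_X_eq, 𝒩.deg_P, 𝒩.deg_P']
  have h1 := 𝒩.deg_P₁
  have h2 := 𝒩.deg_P₂
  have h3 := 𝒩.deg_P₁'
  have h4 := 𝒩.deg_P₂'
  push_cast
  have ha : (0 : ℤ) ≤ a := Int.natCast_nonneg a
  have hb : (0 : ℤ) ≤ b := Int.natCast_nonneg b
  nlinarith

theorem le_degree_X₁ (a b : ℕ) : ((a + b : ℕ) : ℤ) ≤ Divisor.degree (𝒩.X₁ a b) := by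
  rw [degree_X₁_eq]
  have h1 := 𝒩.deg_P₁
  have h3 := 𝒩.deg_P₁'
  push_cast
  have ha : (0 : ℤ) ≤ a := Int.natCast_nonneg a
  have hb : (0 : ℤ) ≤ b := Int.natCast_nonneg b
  nlinarith

theorem le_degree_X₂ (a b : ℕ) : ((a + b : ℕ) : ℤ) ≤ Divisor.degree (𝒩.X₂ a b) := by
  rw [degree_X₂_eq]
  have h1 := 𝒩.deg_P₂
  have h3 := 𝒩.deg_P₂'
  push_cast
  have ha : (0 : ℤ) ≤ a := Int.natCast_nonneg a
  have hb : (0 : ℤ) ≤ b := Int.natCast_nonneg b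
  nlinarith

theorem degree_X (a b : ℕ) :
    Divisor.degree (𝒩.X a b) = Divisor.degree (𝒩.X₁ a b) + Divisor.degree (𝒩.X₂ a b) := by
  rw [degree_X_eq, degree_X₁_eq, degree_X₂_eq, 𝒩.deg_P, 𝒩.deg_P']
  ring

/-- `M ζ a b` as a subspace -/
def Msub (ζ : 𝒩.S → k) (a b : ℕ) : Submodule k (Fb × Fb) where
  carrier := 𝒩.M ζ a b
  zero_mem' := by
    refine ⟨Submodule.zero_mem _, Submodule.zero_mem _, fun s => ⟨0, ?_, ?_⟩⟩
    · simpa using HasVal.const (Q := 𝒩.x₁ s) (0 : k)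
    · simpa using HasVal.const (Q := 𝒩.x₂ s) (0 : k)
  add_mem' := by
    rintro w w' ⟨h1, h2, h3⟩ ⟨h1', h2', h3'⟩
    refine ⟨Submodule.add_mem _ h1 h1', Submodule.add_mem _ h2 h2', fun s => ?_⟩
    obtain ⟨c, hc1, hc2⟩ := h3 s
    obtain ⟨c', hc1', hc2'⟩ := h3' s
    exact ⟨c + c', by rw [mul_add]; exact hc1.add hc1', hc2.add hc2'⟩
  smul_mem' := by
    rintro e w ⟨h1, h2, h3⟩
    refine ⟨Submodule.smul_mem _ e h1, Submodule.smul_mem _ e h2, fun s => ?_⟩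
    obtain ⟨c, hc1, hc2⟩ := h3 s
    exact ⟨e * c, by rw [mul_left_comm]; exact hc1.smul e, hc2.smul e⟩

theorem coe_Msub (ζ : 𝒩.S → k) (a b : ℕ) : (𝒩.Msub ζ a b : Set (Fb × Fb)) = 𝒩.M ζ a b := rfl

theorem mem_Msub {ζ : 𝒩.S → k} {a b : ℕ} {w : Fb × Fb} : w ∈ 𝒩.Msub ζ a b ↔ w ∈ 𝒩.M ζ a b :=
  Iff.rfl

theorem X₁_nonneg (a b : ℕ) : 0 ≤ 𝒩.X₁ a b :=
  add_nonneg (nsmul_nonneg 𝒩.P₁_nonneg a) (nsmul_nonneg 𝒩.P₁'_nonneg b)

theorem X₂_nonneg (a b : ℕ) : 0 ≤ 𝒩.X₂ a b :=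
  add_nonneg (nsmul_nonneg 𝒩.P₂_nonneg a) (nsmul_nonneg 𝒩.P₂'_nonneg b)

theorem X₁_mono {a b a' b' : ℕ} (ha : a ≤ a') (hb' : b ≤ b') : 𝒩.X₁ a b ≤ 𝒩.X₁ a' b' :=
  add_le_add (nsmul_le_nsmul_left 𝒩.P₁_nonneg ha) (nsmul_le_nsmul_left 𝒩.P₁'_nonneg hb')

theorem X₂_mono {a b a' b' : ℕ} (ha : a ≤ a') (hb' : b ≤ b') : 𝒩.X₂ a b ≤ 𝒩.X₂ a' b' :=
  add_le_add (nsmul_le_nsmul_left 𝒩.P₂_nonneg ha) (nsmul_le_nsmul_left 𝒩.P₂'_nonneg hb')

theorem X₁_add (a b a' b' : ℕ) : 𝒩.X₁ (a + a') (b + b') = 𝒩.X₁ a b + 𝒩.X₁ a' b' := by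
  simp only [X₁, add_nsmul]; abel

theorem X₂_add (a b a' b' : ℕ) : 𝒩.X₂ (a + a') (b + b') = 𝒩.X₂ a b + 𝒩.X₂ a' b' := by
  simp only [X₂, add_nsmul]; abel

theorem X₁_apply_node (a b : ℕ) (s : 𝒩.S) : 𝒩.X₁ a b (𝒩.x₁ s) = 0 := by
  simp [X₁, (𝒩.avoid₁ s).1, (𝒩.avoid₁ s).2]

theorem X₂_apply_node (a b : ℕ) (s : 𝒩.S) : 𝒩.X₂ a b (𝒩.x₂ s) = 0 := by
  simp [X₂, (𝒩.avoid₂ s).1, (𝒩.avoid₂ s).2]

theorem one_mem_M (a b : ℕ) : (1 : Fb × Fb) ∈ 𝒩.M 1 a b := by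
  refine ⟨L_mono (𝒩.X₁_nonneg a b) one_mem_L_zero, L_mono (𝒩.X₂_nonneg a b) one_mem_L_zero,
    fun s => ⟨1, ?_, ?_⟩⟩
  · simpa using HasVal.const (Q := 𝒩.x₁ s) (1 : k)
  · simpa using HasVal.const (Q := 𝒩.x₂ s) (1 : k)

theorem mul_mem_M {ζ ζ' : 𝒩.S → k} {a b a' b' : ℕ} {w w' : Fb × Fb} (hw : w ∈ 𝒩.M ζ a b)
    (hw' : w' ∈ 𝒩.M ζ' a' b') : w * w' ∈ 𝒩.M (ζ * ζ') (a + a') (b + b') := by
  obtain ⟨h1, h2, h3⟩ := hw
  obtain ⟨h1', h2', h3'⟩ := hw'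
  refine ⟨?_, ?_, fun s => ?_⟩
  · rw [X₁_add]; exact mul_mem_L h1 h1'
  · rw [X₂_add]; exact mul_mem_L h2 h2'
  · obtain ⟨c, hc1, hc2⟩ := h3 s
    obtain ⟨c', hc1', hc2'⟩ := h3' s
    refine ⟨c * c', ?_, hc2.mul hc2'⟩
    have := hc1.mul hc1'
    rwa [show ζ s * c * (ζ' s * c') = (ζ * ζ') s * (c * c') by
      rw [Pi.mul_apply]; ring] at this

theorem M_mono (ζ : 𝒩.S → k) {a b a' b' : ℕ} (ha : a ≤ a') (hb' : b ≤ b') :
    𝒩.M ζ a b ⊆ 𝒩.M ζ a' b' := by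
  rintro w ⟨h1, h2, h3⟩
  exact ⟨L_mono (𝒩.X₁_mono ha hb') h1, L_mono (𝒩.X₂_mono ha hb') h2, h3⟩


theorem M_inter (ζ : 𝒩.S → k) (a b a' b' : ℕ) :
    𝒩.M ζ a b ∩ 𝒩.M ζ a' b' = 𝒩.M ζ (min a a') (min b b') := by
  apply Set.Subset.antisymm
  · rintro w ⟨⟨h1, h2, h3⟩, ⟨h1', h2', -⟩⟩
    exact ⟨mem_L_min 𝒩.disj₁ h1 h1', mem_L_min 𝒩.disj₂ h2 h2', h3⟩
  · intro w hw
    exact ⟨𝒩.M_mono ζ (min_le_left _ _) (min_le_left _ _) hw,
      𝒩.M_mono ζ (min_le_right _ _) (min_le_right _ _) hw⟩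

section

variable [IsAlgClosed k] {t : Fb} (hb : IsSepParam k t)

/-- evaluation at the nodes on the first component -/
noncomputable def ev₁ (a b : ℕ) : riemannRochSpace (𝒩.X₁ a b) →ₗ[k] (𝒩.S → k) :=
  evL hb 𝒩.x₁ _ (𝒩.X₁_apply_node a b)

/-- evaluation at the nodes on the second component -/
noncomputable def ev₂ (a b : ℕ) : riemannRochSpace (𝒩.X₂ a b) →ₗ[k] (𝒩.S → k) :=
  evL hb 𝒩.x₂ _ (𝒩.X₂_apply_node a b)

theorem hasVal_ev₁ (a b : ℕ) (u : riemannRochSpace (𝒩.X₁ a b)) (s : 𝒩.S) :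
    HasVal (𝒩.x₁ s) (u : Fb) (𝒩.ev₁ hb a b u s) := hasVal_evL hb _ _ _ u s

theorem hasVal_ev₂ (a b : ℕ) (u : riemannRochSpace (𝒩.X₂ a b)) (s : 𝒩.S) :
    HasVal (𝒩.x₂ s) (u : Fb) (𝒩.ev₂ hb a b u s) := hasVal_evL hb _ _ _ u s

/-- the gluing conditions -/
noncomputable def glueMap (ζ : 𝒩.S → k) (a b : ℕ) :
    riemannRochSpace (𝒩.X₁ a b) × riemannRochSpace (𝒩.X₂ a b) →ₗ[k] (𝒩.S → k) where
  toFun p s := 𝒩.ev₁ hb a b p.1 s - ζ s * 𝒩.ev₂ hb a b p.2 s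
  map_add' p q := by
    ext s
    simp only [Prod.fst_add, Prod.snd_add, map_add, Pi.add_apply]
    ring
  map_smul' e p := by
    ext s
    simp only [Prod.smul_fst, Prod.smul_snd, map_smul, Pi.smul_apply, smul_eq_mul,
      RingHom.id_apply]
    ring

/-- the inclusion `L(X₁) × L(X₂) → Fb × Fb` -/
noncomputable def inclMap (a b : ℕ) :
    riemannRochSpace (𝒩.X₁ a b) × riemannRochSpace (𝒩.X₂ a b) →ₗ[k] Fb × Fb :=
  LinearMap.prodMap (riemannRochSpace (𝒩.X₁ a b)).subtype (riemannRochSpace (𝒩.X₂ a b)).subtype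

omit [IsAlgClosed k] in
theorem inclMap_injective (a b : ℕ) : Function.Injective (𝒩.inclMap a b) := by
  intro p q h
  have h1 : (p.1 : Fb) = q.1 := congrArg Prod.fst h
  have h2 : (p.2 : Fb) = q.2 := congrArg Prod.snd h
  exact Prod.ext (Subtype.ext h1) (Subtype.ext h2)

theorem Msub_eq_map (ζ : 𝒩.S → k) (a b : ℕ) :
    𝒩.Msub ζ a b = (LinearMap.ker (𝒩.glueMap hb ζ a b)).map (𝒩.inclMap a b) := by
  ext w
  rw [Submodule.mem_map]
  constructor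
  · rintro ⟨h1, h2, h3⟩
    refine ⟨(⟨w.1, h1⟩, ⟨w.2, h2⟩), ?_, rfl⟩
    rw [LinearMap.mem_ker]
    ext s
    obtain ⟨c, hc1, hc2⟩ := h3 s
    have e1 := (𝒩.hasVal_ev₁ hb a b ⟨w.1, h1⟩ s).unique hc1
    have e2 := (𝒩.hasVal_ev₂ hb a b ⟨w.2, h2⟩ s).unique hc2
    show 𝒩.ev₁ hb a b ⟨w.1, h1⟩ s - ζ s * 𝒩.ev₂ hb a b ⟨w.2, h2⟩ s = 0
    rw [e1, e2, sub_self]
  · rintro ⟨p, hp, rfl⟩
    refine ⟨p.1.2, p.2.2, fun s => ⟨𝒩.ev₂ hb a b p.2 s, ?_, 𝒩.hasVal_ev₂ hb a b p.2 s⟩⟩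
    rw [LinearMap.mem_ker] at hp
    have h1 : 𝒩.ev₁ hb a b p.1 s - ζ s * 𝒩.ev₂ hb a b p.2 s = 0 := congrFun hp s
    rw [← sub_eq_zero.1 h1]
    exact 𝒩.hasVal_ev₁ hb a b p.1 s

include hb

theorem finite_Msub (ζ : 𝒩.S → k) (a b : ℕ) : FiniteDimensional k (𝒩.Msub ζ a b) := by
  have := hb.finite_L (𝒩.X₁ a b)
  have := hb.finite_L (𝒩.X₂ a b)
  rw [𝒩.Msub_eq_map hb]
  infer_instance

theorem ev₁_surjective {n : ℕ} (hn : 𝒩.IsLarge n) {a b : ℕ} (hab : n ≤ a + b) :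
    Function.Surjective (𝒩.ev₁ hb a b) := by
  have h0 := 𝒩.le_degree_X₁ a b
  have hab' : (n : ℤ) ≤ ((a + b : ℕ) : ℤ) := by exact_mod_cast hab
  refine evL_surjective hb 𝒩.x₁_inj _ _ (g := gR k Fb) (hn.2 _ ?_) (hn.2 _ ?_)
  · have : (0 : ℤ) ≤ Fintype.card 𝒩.S := Int.natCast_nonneg _
    omega
  · rw [map_sub, degree_sumPts hb]
    omega

theorem ev₂_surjective {n : ℕ} (hn : 𝒩.IsLarge n) {a b : ℕ} (hab : n ≤ a + b) :
    Function.Surjective (𝒩.ev₂ hb a b) := by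
  have h0 := 𝒩.le_degree_X₂ a b
  have hab' : (n : ℤ) ≤ ((a + b : ℕ) : ℤ) := by exact_mod_cast hab
  refine evL_surjective hb 𝒩.x₂_inj _ _ (g := gR k Fb) (hn.2 _ ?_) (hn.2 _ ?_)
  · have : (0 : ℤ) ≤ Fintype.card 𝒩.S := Int.natCast_nonneg _
    omega
  · rw [map_sub, degree_sumPts hb]
    omega

/-- the dimension of `M ζ a b` : the `#S` gluing conditions are independent -/
theorem finrank_Msub {n : ℕ} (hn : 𝒩.IsLarge n) (ζ : 𝒩.S → k) {a b : ℕ} (hab : n ≤ a + b) :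
    (Module.finrank k (𝒩.Msub ζ a b) : ℤ) =
      Divisor.degree (𝒩.X₁ a b) + Divisor.degree (𝒩.X₂ a b) + 2 - 2 * gR k Fb
        - Fintype.card 𝒩.S := by
  have := hb.finite_L (𝒩.X₁ a b)
  have := hb.finite_L (𝒩.X₂ a b)
  have hab' : (n : ℤ) ≤ ((a + b : ℕ) : ℤ) := by exact_mod_cast hab
  have hS : (0 : ℤ) ≤ Fintype.card 𝒩.S := Int.natCast_nonneg _
  have e1 := hn.2 (𝒩.X₁ a b) (by have := 𝒩.le_degree_X₁ a b; omega)
  have e2 := hn.2 (𝒩.X₂ a b) (by have := 𝒩.le_degree_X₂ a b; omega)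
  have hsurj : Function.Surjective (𝒩.glueMap hb ζ a b) := by
    intro y
    obtain ⟨u, hu⟩ := 𝒩.ev₁_surjective hb hn hab y
    refine ⟨(u, 0), ?_⟩
    ext s
    show 𝒩.ev₁ hb a b u s - ζ s * 𝒩.ev₂ hb a b 0 s = y s
    rw [hu, map_zero]
    simp
  have h3 := LinearMap.finrank_range_add_finrank_ker (𝒩.glueMap hb ζ a b)
  rw [LinearMap.range_eq_top.2 hsurj, finrank_top, Module.finrank_fintype_fun_eq_card,
    Module.finrank_prod] at h3
  rw [𝒩.Msub_eq_map hb,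
    ← (Submodule.equivMapOfInjective _ (𝒩.inclMap_injective a b) _).finrank_eq]
  omega

/-- there are sections with prescribed values at the nodes -/
theorem exists_mem_M_hasVal {n : ℕ} (hn : 𝒩.IsLarge n) (ζ : 𝒩.S → k) {a b : ℕ}
    (hab : n ≤ a + b) (y : 𝒩.S → k) :
    ∃ w ∈ 𝒩.M ζ a b, ∀ s, HasVal (𝒩.x₁ s) w.1 (ζ s * y s) ∧ HasVal (𝒩.x₂ s) w.2 (y s) := by
  obtain ⟨u, hu⟩ := 𝒩.ev₁_surjective hb hn hab (fun s => ζ s * y s)
  obtain ⟨v, hv⟩ := 𝒩.ev₂_surjective hb hn hab y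
  have h1 : ∀ s, HasVal (𝒩.x₁ s) (u : Fb) (ζ s * y s) := fun s => by
    have := 𝒩.hasVal_ev₁ hb a b u s
    rwa [hu] at this
  have h2 : ∀ s, HasVal (𝒩.x₂ s) (v : Fb) (y s) := fun s => by
    have := 𝒩.hasVal_ev₂ hb a b v s
    rwa [hv] at this
  exact ⟨(u, v), ⟨u.2, v.2, fun s => ⟨y s, h1 s, h2 s⟩⟩, fun s => ⟨h1 s, h2 s⟩⟩

/-- there are sections which do not vanish at any node -/
theorem exists_mem_M_ne_zero {n : ℕ} (hn : 𝒩.IsLarge n) (ζ : 𝒩.S → k) {a b : ℕ}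
    (hab : n ≤ a + b) :
    ∃ w ∈ 𝒩.M ζ a b, ∀ s, ∃ c : k, c ≠ 0 ∧ HasVal (𝒩.x₂ s) w.2 c := by
  obtain ⟨w, hw, h⟩ := 𝒩.exists_mem_M_hasVal hb hn ζ hab (fun _ => 1)
  exact ⟨w, hw, fun s => ⟨1, one_ne_zero, (h s).2⟩⟩

/-- the gluing datum is determined by the space of sections -/
theorem eq_of_M_subset {n : ℕ} (hn : 𝒩.IsLarge n) {ζ ζ' : 𝒩.S → k} {a b : ℕ} (hab : n ≤ a + b)
    (h : 𝒩.M ζ a b ⊆ 𝒩.M ζ' a b) : ζ = ζ' := by
  obtain ⟨w, hw, hv⟩ := 𝒩.exists_mem_M_hasVal hb hn ζ hab (fun _ => 1)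
  ext s
  obtain ⟨c, hc1, hc2⟩ := (h hw).2.2 s
  have e2 := hc2.unique (hv s).2
  have e1 := hc1.unique (hv s).1
  rw [e2] at e1
  simpa using e1.symm

/-- Mayer-Vietoris on the special fibre -/
theorem Msub_sup {n : ℕ} (hn : 𝒩.IsLarge n) (ζ : 𝒩.S → k) {a a' b b' : ℕ} (ha : a ≤ a')
    (hb' : b' ≤ b) (hab : n ≤ a + b') :
    𝒩.Msub ζ a' b' ⊔ 𝒩.Msub ζ a b = 𝒩.Msub ζ a' b := by
  have f1 := 𝒩.finite_Msub hb ζ a' b'
  have f2 := 𝒩.finite_Msub hb ζ a b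
  have f3 := 𝒩.finite_Msub hb ζ a' b
  have hle : 𝒩.Msub ζ a' b' ⊔ 𝒩.Msub ζ a b ≤ 𝒩.Msub ζ a' b :=
    sup_le (𝒩.M_mono ζ le_rfl hb') (𝒩.M_mono ζ ha le_rfl)
  apply Submodule.eq_of_le_of_finrank_eq hle
  have hinf : 𝒩.Msub ζ a' b' ⊓ 𝒩.Msub ζ a b = 𝒩.Msub ζ a b' := by
    apply SetLike.coe_injective
    rw [Submodule.coe_inf, coe_Msub, coe_Msub, coe_Msub, M_inter, min_eq_right ha,
      min_eq_left hb']
  have h1 := Submodule.finrank_sup_add_finrank_inf_eq (𝒩.Msub ζ a' b') (𝒩.Msub ζ a b)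
  rw [hinf] at h1
  have d1 := 𝒩.finrank_Msub hb hn ζ (a := a') (b := b') (by omega)
  have d2 := 𝒩.finrank_Msub hb hn ζ (a := a) (b := b) (by omega)
  have d3 := 𝒩.finrank_Msub hb hn ζ (a := a') (b := b) (by omega)
  have d4 := 𝒩.finrank_Msub hb hn ζ (a := a) (b := b') hab
  simp only [degree_X₁_eq, degree_X₂_eq] at d1 d2 d3 d4
  have h1' : (Module.finrank k ↥(𝒩.Msub ζ a' b' ⊔ 𝒩.Msub ζ a b) : ℤ)
      + Module.finrank k (𝒩.Msub ζ a b') =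
      Module.finrank k (𝒩.Msub ζ a' b') + Module.finrank k (𝒩.Msub ζ a b) := by
    exact_mod_cast h1
  have : (Module.finrank k ↥(𝒩.Msub ζ a' b' ⊔ 𝒩.Msub ζ a b) : ℤ)
      = Module.finrank k (𝒩.Msub ζ a' b) := by
    linarith
  exact_mod_cast this

end

end NodalData

end Fermat.Agent.SS
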