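import Fermat.Agent.SS.Abs.MatchDim
import Fermat.Agent.SS.Abs.Lattice
import Fermat.Agent.SS.Lin

/-!
# SS / abstract part, leaves [W], [MULT] : the reduction of the twisted Riemann-Roch spaces
-/

set_option autoImplicit false
set_option linter.unusedSectionVars false
set_option linter.style.haveILetI false

open AlgebraicCurve

namespace Fermat.Agent.SS

open Fermat.Agent.RED Fermat.Agent.S24

variable {K F k Fb : Type*} [Field K] [Field F] [Algebra K F] [Field k] [Field Fb] [Algebra k Fb]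
  [IsAlgClosed K] [IsAlgClosed k] {x : F} {t : Fb}

/-- an `m`-th root of an element of `L(m E)` lies in `L(E)` -/
theorem ws_mem_L_of_pow_mem {k Fb : Type*} [Field k] [Field Fb] [Algebra k Fb] {m : ℕ} (hm : m ≠ 0)
    {E : Divisor k Fb} {u : Fb} (hu : u ^ m ∈ riemannRochSpace (m • E)) :
    u ∈ riemannRochSpace E := by
  rcases eq_or_ne u 0 with rfl | hu0
  · exact Submodule.zero_mem _
  rw [mem_L_iff_of_ne_zero (pow_ne_zero m hu0)] at hu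
  rw [mem_L_iff_of_ne_zero hu0]
  intro v
  have h := hu v
  rw [Place.ord_pow, Finsupp.smul_apply, nsmul_eq_mul, ← mul_add] at h
  have hm' : (0 : ℤ) < m := by exact_mod_cast Nat.pos_of_ne_zero hm
  exact nonneg_of_mul_nonneg_right h hm'

theorem IsOne.ne_zero {T : TwoRed K F k Fb} {m : ℕ} {D : Divisor K F} {f : T.O}
    (h : IsOne T m D f) : (f : F) ≠ 0 := by
  intro h0
  have : f = 0 := Subtype.ext h0
  have h1 := h.red
  rw [this, map_zero] at h1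
  exact zero_ne_one h1

namespace NodalData

variable {T : TwoRed K F k Fb} (𝒩 : NodalData T)

theorem wsX_add (a b a' b' : ℕ) : 𝒩.X (a + a') (b + b') = 𝒩.X a b + 𝒩.X a' b' := by
  simp only [X, add_nsmul]; abel

theorem wsX_mul (m a b : ℕ) : 𝒩.X (m * a) (m * b) = m • 𝒩.X a b := by
  simp only [X, mul_nsmul', nsmul_add]

theorem wsX₁_mul (m a b : ℕ) : 𝒩.X₁ (m * a) (m * b) = m • 𝒩.X₁ a b := by
  simp only [X₁, mul_nsmul', nsmul_add]

theorem wsX₂_mul (m a b : ℕ) : 𝒩.X₂ (m * a) (m * b) = m • 𝒩.X₂ a b := by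
  simp only [X₂, mul_nsmul', nsmul_add]

theorem wsX₁_apply (a b : ℕ) (s : 𝒩.S) : 𝒩.X₁ a b (𝒩.x₁ s) = 0 := by
  simp [X₁, (𝒩.avoid₁ s).1, (𝒩.avoid₁ s).2]

theorem wsX₂_apply (a b : ℕ) (s : 𝒩.S) : 𝒩.X₂ a b (𝒩.x₂ s) = 0 := by
  simp [X₂, (𝒩.avoid₂ s).1, (𝒩.avoid₂ s).2]

/-- [W0] dimension of `W D a b` -/
theorem finrank_W (hx : IsSepParam K x) {n : ℕ} (hn : 𝒩.IsLarge n) {D : Divisor K F}
    (hD : Divisor.degree D = 0) {a b : ℕ} (hab : n ≤ a + b) :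
    (Module.finrank k (𝒩.W D a b) : ℤ) = Divisor.degree (𝒩.X a b) + 1 - gR K F := by
  haveI : FiniteDimensional K (riemannRochSpace (D + 𝒩.X a b)) := hx.finite_L _
  have h1 := T.finrank_redSub_le (riemannRochSpace (D + 𝒩.X a b))
  have h2 := 𝒩.on2 (riemannRochSpace (D + 𝒩.X a b)) inferInstance
  have h3 : Module.finrank k (𝒩.W D a b) = Module.finrank K (riemannRochSpace (D + 𝒩.X a b)) :=
    le_antisymm h1 h2
  have hdeg : Divisor.degree (D + 𝒩.X a b) = Divisor.degree (𝒩.X a b) := by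
    rw [map_add, hD, zero_add]
  have h4 := hn.1 (D + 𝒩.X a b)
    (by rw [hdeg]; exact le_trans (by exact_mod_cast hab) (𝒩.le_degree_X a b))
  rw [h3, h4, hdeg]

/-- [W1] pole bounds and gluing of `m`-th powers for the twisted spaces -/
theorem W_subset (hx : IsSepParam K x) (hb : IsSepParam k t) {m : ℕ} (hm : m ≠ 0)
    {D : Divisor K F} {f : T.O} (h : IsOne T m D f) (a b : ℕ) {w : Fb × Fb}
    (hw : w ∈ 𝒩.W D a b) :
    w.1 ∈ riemannRochSpace (𝒩.X₁ a b) ∧ w.2 ∈ riemannRochSpace (𝒩.X₂ a b) ∧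
      ∀ s, ∃ c₁ c₂ : k, HasVal (𝒩.x₁ s) w.1 c₁ ∧ HasVal (𝒩.x₂ s) w.2 c₂ ∧ c₁ ^ m = c₂ ^ m := by
  obtain ⟨u, hu, rfl⟩ := hw
  have hf0 := h.ne_zero
  have key : ((u ^ m * f : T.O) : F) ∈ riemannRochSpace ((m * a) • 𝒩.P + (m * b) • 𝒩.P') := by
    change ((u ^ m * f : T.O) : F) ∈ riemannRochSpace (𝒩.X (m * a) (m * b))
    rw [wsX_mul]
    rcases eq_or_ne (u : F) 0 with h0 | h0
    · have : ((u ^ m * f : T.O) : F) = 0 := by
        push_cast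
        rw [h0, zero_pow hm, zero_mul]
      rw [this]; exact Submodule.zero_mem _
    · have hne : ((u ^ m * f : T.O) : F) ≠ 0 := by
        push_cast
        exact mul_ne_zero (pow_ne_zero _ h0) hf0
      rw [mem_L_iff_of_ne_zero hne]
      intro v
      have h1 := (mem_L_iff_of_ne_zero h0).1 hu v
      have hcast : ((u ^ m * f : T.O) : F) = (u : F) ^ m * (f : F) := by push_cast; rfl
      rw [hcast, v.ord_mul (pow_ne_zero _ h0) hf0, Place.ord_pow, ← h.ord v, Finsupp.smul_apply,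
        nsmul_eq_mul]
      rw [Finsupp.add_apply] at h1
      have hm' : (0 : ℤ) ≤ m := by positivity
      nlinarith [mul_nonneg hm' h1]
  have hred : T.red (u ^ m * f) = (T.red u) ^ m := by rw [map_mul, map_pow, h.red, mul_one]
  have hp := 𝒩.pole (m * a) (m * b) (u ^ m * f) key
  have hg := 𝒩.glue (m * a) (m * b) (u ^ m * f) key
  rw [hred] at hp hg
  have h1 : (T.red u).1 ∈ riemannRochSpace (𝒩.X₁ a b) := by
    apply ws_mem_L_of_pow_mem hm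
    rw [← wsX₁_mul]
    exact hp.1
  have h2 : (T.red u).2 ∈ riemannRochSpace (𝒩.X₂ a b) := by
    apply ws_mem_L_of_pow_mem hm
    rw [← wsX₂_mul]
    exact hp.2
  refine ⟨h1, h2, fun s => ?_⟩
  obtain ⟨c₁, hc₁⟩ := exists_hasVal_of_mem_L (𝒩.x₁ s) hb (𝒩.wsX₁_apply a b s) h1
  obtain ⟨c₂, hc₂⟩ := exists_hasVal_of_mem_L (𝒩.x₂ s) hb (𝒩.wsX₂_apply a b s) h2
  obtain ⟨c, hc, hc'⟩ := hg s
  refine ⟨c₁, c₂, hc₁, hc₂, ?_⟩
  rw [(hc₁.pow m).unique hc, (hc₂.pow m).unique hc']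


theorem wsX_mono {a b a' b' : ℕ} (ha : a ≤ a') (hb' : b ≤ b') : 𝒩.X a b ≤ 𝒩.X a' b' := by
  rw [Finsupp.le_def]
  intro v
  simp only [X, Finsupp.add_apply, Finsupp.smul_apply, nsmul_eq_mul]
  have h1 : (0 : ℤ) ≤ 𝒩.P v := 𝒩.P_nonneg v
  have h2 : (0 : ℤ) ≤ 𝒩.P' v := 𝒩.P'_nonneg v
  have h3 : (a : ℤ) ≤ a' := by exact_mod_cast ha
  have h4 : (b : ℤ) ≤ b' := by exact_mod_cast hb'
  nlinarith [mul_le_mul_of_nonneg_right h3 h1, mul_le_mul_of_nonneg_right h4 h2]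

theorem W_mono (D : Divisor K F) {a b a' b' : ℕ} (ha : a ≤ a') (hb' : b ≤ b') :
    𝒩.W D a b ≤ 𝒩.W D a' b' := by
  rintro _ ⟨u, hu, rfl⟩
  exact ⟨u, L_mono (add_le_add_right (𝒩.wsX_mono ha hb') D) hu, rfl⟩

/-- the structure of one twisted space -/
theorem exists_zeta_aux (hx : IsSepParam K x) (hb : IsSepParam k t) {n : ℕ} (hn : 𝒩.IsLarge n)
    {m : ℕ} (hm : m ≠ 0) {D : Divisor K F} {f : T.O} (h : IsOne T m D f) {a b : ℕ}
    (hab : n ≤ a + b) :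
    ∃ ζ : 𝒩.S → k, (∀ s, ζ s ^ m = 1) ∧ (𝒩.W D a b : Set (Fb × Fb)) = 𝒩.M ζ a b := by
  classical
  have hW := fun (w : 𝒩.W D a b) => 𝒩.W_subset hx hb hm h a b w.2
  -- the evaluation maps
  have hv₁ : ∀ (s : 𝒩.S) (w : 𝒩.W D a b), HasVal (𝒩.x₁ s) w.1.1 (pval (𝒩.x₁ s) w.1.1) := by
    intro s w
    obtain ⟨c₁, c₂, h1, -, -⟩ := (hW w).2.2 s
    rwa [hasVal_pval _ h1]
  have hv₂ : ∀ (s : 𝒩.S) (w : 𝒩.W D a b), HasVal (𝒩.x₂ s) w.1.2 (pval (𝒩.x₂ s) w.1.2) := by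
    intro s w
    obtain ⟨c₁, c₂, -, h2, -⟩ := (hW w).2.2 s
    rwa [hasVal_pval _ h2]
  let lam : 𝒩.S → (𝒩.W D a b →ₗ[k] k) := fun s =>
    { toFun := fun w => pval (𝒩.x₁ s) w.1.1
      map_add' := fun w w' => hasVal_pval _ ((hv₁ s w).add (hv₁ s w'))
      map_smul' := fun c w => hasVal_pval _ ((hv₁ s w).smul c) }
  let mu : 𝒩.S → (𝒩.W D a b →ₗ[k] k) := fun s =>
    { toFun := fun w => pval (𝒩.x₂ s) w.1.2
      map_add' := fun w w' => hasVal_pval _ ((hv₂ s w).add (hv₂ s w'))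
      map_smul' := fun c w => hasVal_pval _ ((hv₂ s w).smul c) }
  have hpow : ∀ s w, lam s w ^ m = mu s w ^ m := by
    intro s w
    obtain ⟨c₁, c₂, h1, h2, h3⟩ := (hW w).2.2 s
    change pval (𝒩.x₁ s) w.1.1 ^ m = pval (𝒩.x₂ s) w.1.2 ^ m
    rw [hasVal_pval _ h1, hasVal_pval _ h2, h3]
  choose ζ hζ1 hζ2 using fun s => exists_root_smul_of_pow_eq hm (lam s) (mu s) (hpow s)
  refine ⟨ζ, hζ1, ?_⟩
  have hle : 𝒩.W D a b ≤ 𝒩.Msub ζ a b := by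
    intro w hw
    refine ⟨(hW ⟨w, hw⟩).1, (hW ⟨w, hw⟩).2.1, fun s => ⟨pval (𝒩.x₂ s) w.2, ?_, hv₂ s ⟨w, hw⟩⟩⟩
    have h1 := hv₁ s ⟨w, hw⟩
    have h2 : lam s ⟨w, hw⟩ = ζ s * mu s ⟨w, hw⟩ := by rw [hζ2 s]; rfl
    change pval (𝒩.x₁ s) w.1 = ζ s * pval (𝒩.x₂ s) w.2 at h2
    rwa [← h2]
  haveI := 𝒩.finite_Msub hb ζ a b
  have hdim : Module.finrank k (𝒩.W D a b) = Module.finrank k (𝒩.Msub ζ a b) := by
    have h1 := 𝒩.finrank_W hx hn h.deg hab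
    have h2 := 𝒩.finrank_Msub hb hn ζ hab
    have h3 := 𝒩.card
    have h4 := 𝒩.degree_X a b
    have : (Module.finrank k (𝒩.W D a b) : ℤ) = Module.finrank k (𝒩.Msub ζ a b) := by
      rw [h1, h2, h3, h4]; ring
    exact_mod_cast this
  have := Submodule.eq_of_le_of_finrank_eq hle hdim
  rw [this]
  rfl

/-- comparison of the gluing data of two twisted spaces -/
theorem zeta_eq_of_le (hb : IsSepParam k t) {n : ℕ} (hn : 𝒩.IsLarge n) {D : Divisor K F}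
    {a b a' b' : ℕ} (hab : n ≤ a + b) (ha : a ≤ a') (hb' : b ≤ b') {ζ ζ' : 𝒩.S → k}
    (h : (𝒩.W D a b : Set (Fb × Fb)) = 𝒩.M ζ a b)
    (h' : (𝒩.W D a' b' : Set (Fb × Fb)) = 𝒩.M ζ' a' b') : ζ = ζ' := by
  apply 𝒩.eq_of_M_subset hb hn hab
  intro w hw
  have h1 : w ∈ 𝒩.M ζ' a' b' := by
    rw [← h']
    apply 𝒩.W_mono D ha hb'
    have : w ∈ (𝒩.W D a b : Set (Fb × Fb)) := by rw [h]; exact hw
    exact this
  exact ⟨hw.1, hw.2.1, h1.2.2⟩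

/-- [W] **structure of the twisted spaces**: `W D a b = M ζ a b` for a gluing datum `ζ` with values
in the `m`-th roots of unity. -/
theorem exists_zeta (hx : IsSepParam K x) (hb : IsSepParam k t) {n : ℕ} (hn : 𝒩.IsLarge n)
    {m : ℕ} (hm : m ≠ 0) {D : Divisor K F} {f : T.O} (h : IsOne T m D f) :
    ∃ ζ : 𝒩.S → k, (∀ s, ζ s ^ m = 1) ∧
      ∀ a b : ℕ, n ≤ a + b → (𝒩.W D a b : Set (Fb × Fb)) = 𝒩.M ζ a b := by
  obtain ⟨ζ, hζ, h0⟩ := 𝒩.exists_zeta_aux hx hb hn hm h (a := n) (b := 0) (le_refl _)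
  refine ⟨ζ, hζ, fun a b hab => ?_⟩
  obtain ⟨ζ₁, -, h1⟩ := 𝒩.exists_zeta_aux hx hb hn hm h hab
  obtain ⟨ζ₂, -, h2⟩ := 𝒩.exists_zeta_aux hx hb hn hm h (a := max n a) (b := b)
    (le_trans (le_max_left n a) (Nat.le_add_right _ _))
  have e1 : ζ = ζ₂ := 𝒩.zeta_eq_of_le hb hn (le_refl _) (le_max_left n a) (Nat.zero_le b) h0 h2
  have e2 : ζ₁ = ζ₂ := 𝒩.zeta_eq_of_le hb hn hab (le_max_right n a) (le_refl b) h1 h2
  rw [e1, ← e2]
  exact h1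


/-- [MULT1] products -/
theorem mul_mem_W {D D' : Divisor K F} {a b a' b' : ℕ} {w w' : Fb × Fb} (hw : w ∈ 𝒩.W D a b)
    (hw' : w' ∈ 𝒩.W D' a' b') : w * w' ∈ 𝒩.W (D + D') (a + a') (b + b') := by
  obtain ⟨u, hu, rfl⟩ := hw
  obtain ⟨u', hu', rfl⟩ := hw'
  refine ⟨u * u', ?_, map_mul _ _ _⟩
  have h1 := mul_mem_L hu hu'
  have h2 : D + 𝒩.X a b + (D' + 𝒩.X a' b') = D + D' + 𝒩.X (a + a') (b + b') := by
    rw [wsX_add]; abel
  rw [h2] at h1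
  exact h1

/-- [MULT2] the gluing datum is multiplicative -/
theorem zeta_add (hb : IsSepParam k t) {n : ℕ} (hn : 𝒩.IsLarge n) {D D' : Divisor K F}
    {ζ ζ' ζ'' : 𝒩.S → k}
    (h : ∀ a b : ℕ, n ≤ a + b → (𝒩.W D a b : Set (Fb × Fb)) = 𝒩.M ζ a b)
    (h' : ∀ a b : ℕ, n ≤ a + b → (𝒩.W D' a b : Set (Fb × Fb)) = 𝒩.M ζ' a b)
    (h'' : ∀ a b : ℕ, n ≤ a + b → (𝒩.W (D + D') a b : Set (Fb × Fb)) = 𝒩.M ζ'' a b) :
    ζ'' = ζ * ζ' := by
  obtain ⟨w, hw, hw0⟩ := 𝒩.exists_mem_M_ne_zero hb hn ζ (a := n) (b := 0) (le_refl _)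
  obtain ⟨w', hw', hw0'⟩ := 𝒩.exists_mem_M_ne_zero hb hn ζ' (a := n) (b := 0) (le_refl _)
  have h1 : w ∈ 𝒩.W D n 0 := by
    have : w ∈ (𝒩.W D n 0 : Set (Fb × Fb)) := by rw [h n 0 (le_refl _)]; exact hw
    exact this
  have h2 : w' ∈ 𝒩.W D' n 0 := by
    have : w' ∈ (𝒩.W D' n 0 : Set (Fb × Fb)) := by rw [h' n 0 (le_refl _)]; exact hw'
    exact this
  have h3 : w * w' ∈ 𝒩.M ζ'' (n + n) (0 + 0) := by
    rw [← h'' (n + n) (0 + 0) (by omega)]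
    exact 𝒩.mul_mem_W h1 h2
  have h4 : w * w' ∈ 𝒩.M (ζ * ζ') (n + n) (0 + 0) := 𝒩.mul_mem_M hw hw'
  funext s
  obtain ⟨c, hc0, hc⟩ := hw0 s
  obtain ⟨c', hc0', hc'⟩ := hw0' s
  obtain ⟨d, hd1, hd2⟩ := h3.2.2 s
  obtain ⟨e, he1, he2⟩ := h4.2.2 s
  have hd : d = c * c' := hd2.unique (hc.mul hc')
  have he : e = c * c' := he2.unique (hc.mul hc')
  have := hd1.unique he1
  rw [hd, he] at this
  exact mul_right_cancel₀ (mul_ne_zero hc0 hc0') this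

theorem ws_smul_mem_L (g : SemilinearAut K F) {E : Divisor K F} {u : F}
    (hu : u ∈ riemannRochSpace E) : g • u ∈ riemannRochSpace (g • E) := by
  rcases eq_or_ne u 0 with rfl | hu0
  · rw [smul_zero]; exact Submodule.zero_mem _
  have hgu : g • u ≠ 0 := by
    rw [SemilinearAut.smul_def]
    exact (map_ne_zero_iff _ (SemilinearAut.toRingAut g).injective).2 hu0
  rw [mem_L_iff_of_ne_zero hu0] at hu
  rw [mem_L_iff_of_ne_zero hgu]
  intro v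
  have h1 := hu (g⁻¹ • v)
  have h2 := SemilinearAut.ord_smul g (g⁻¹ • v) u
  rw [smul_inv_smul] at h2
  rw [h2, SemilinearAut.divisor_smul_apply]
  exact h1

/-- [MULT3] equivariance -/
theorem zeta_smul (hb : IsSepParam k t) {n : ℕ} (hn : 𝒩.IsLarge n) {g : SemilinearAut K F}
    {φ : SemilinearAut k Fb} (hg : IsCompat 𝒩 g φ) {D : Divisor K F} {ζ ζ' : 𝒩.S → k}
    (h : ∀ a b : ℕ, n ≤ a + b → (𝒩.W D a b : Set (Fb × Fb)) = 𝒩.M ζ a b)
    (h' : ∀ a b : ℕ, n ≤ a + b → (𝒩.W (g • D) a b : Set (Fb × Fb)) = 𝒩.M ζ' a b) :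
    ∀ s, ζ' s = SemilinearAut.baseAut φ (ζ s) := by
  intro s
  obtain ⟨w, hw, hw0⟩ := 𝒩.exists_mem_M_ne_zero hb hn ζ (a := n) (b := 0) (le_refl _)
  have h1 : w ∈ (𝒩.W D n 0 : Set (Fb × Fb)) := by rw [h n 0 (le_refl _)]; exact hw
  obtain ⟨u, hu, rfl⟩ := h1
  have hX : g • 𝒩.X n 0 = 𝒩.X n 0 := by
    have e : 𝒩.X n 0 = n • 𝒩.P := by simp only [X, zero_nsmul, add_zero]
    rw [e, smul_comm, hg.P]
  have h2 : T.red ⟨g • (u : F), hg.mem u⟩ ∈ 𝒩.M ζ' n 0 := by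
    rw [← h' n 0 (le_refl _)]
    refine ⟨⟨g • (u : F), hg.mem u⟩, ?_, rfl⟩
    have := ws_smul_mem_L g hu
    rwa [smul_add, hX] at this
  rw [hg.red u] at h2
  obtain ⟨c, hc0, hc⟩ := hw0 s
  obtain ⟨e, he1, he2⟩ := hw.2.2 s
  obtain ⟨d, hd1, hd2⟩ := h2.2.2 s
  have hec : e = c := he2.unique hc
  subst hec
  have k1 := he1.smul_aut φ
  have k2 := he2.smul_aut φ
  rw [hg.x₁ s] at k1
  rw [hg.x₂ s] at k2
  have hd : d = SemilinearAut.baseAut φ e := hd2.unique k2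
  have := hd1.unique k1
  rw [hd, map_mul] at this
  exact mul_right_cancel₀ ((map_ne_zero_iff _ (SemilinearAut.baseAut φ).injective).2 hc0) this

end NodalData

/-- [ISONE] stability of `IsOne` -/
theorem IsOne.add {T : TwoRed K F k Fb} {m : ℕ} {D D' : Divisor K F} {f f' : T.O}
    (h : IsOne T m D f) (h' : IsOne T m D' f') : IsOne T m (D + D') (f * f') where
  deg := by rw [map_add, h.deg, h'.deg, add_zero]
  ord := fun v => by
    have : ((f * f' : T.O) : F) = (f : F) * (f' : F) := rfl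
    rw [this, v.ord_mul h.ne_zero h'.ne_zero, ← h.ord v, ← h'.ord v, Finsupp.add_apply, mul_add]
  red := by rw [map_mul, h.red, h'.red, mul_one]

theorem IsOne.nsmul {T : TwoRed K F k Fb} {m : ℕ} {D : Divisor K F} {f : T.O}
    (h : IsOne T m D f) (i : ℕ) : IsOne T m (i • D) (f ^ i) where
  deg := by rw [map_nsmul, h.deg, smul_zero]
  ord := fun v => by
    have : ((f ^ i : T.O) : F) = (f : F) ^ i := rfl
    rw [this, Place.ord_pow, ← h.ord v, Finsupp.smul_apply, nsmul_eq_mul]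
    ring
  red := by rw [map_pow, h.red, one_pow]

theorem IsOne.exists_neg {T : TwoRed K F k Fb} {m : ℕ} {D : Divisor K F} {f : T.O}
    (h : IsOne T m D f) : ∃ f' : T.O, IsOne T m (-D) f' := by
  have h1 : T.R₁.red ⟨f, f.2.1⟩ = 1 := congrArg Prod.fst h.red
  have h2 : T.R₂.red ⟨f, f.2.2⟩ = 1 := congrArg Prod.snd h.red
  have m1 : ((f : F))⁻¹ ∈ T.R₁.O :=
    T.R₁.inv_mem_of_red_ne_zero (x := ⟨f, f.2.1⟩) (by rw [h1]; exact one_ne_zero)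
  have m2 : ((f : F))⁻¹ ∈ T.R₂.O :=
    T.R₂.inv_mem_of_red_ne_zero (x := ⟨f, f.2.2⟩) (by rw [h2]; exact one_ne_zero)
  refine ⟨⟨(f : F)⁻¹, m1, m2⟩, ?_, fun v => ?_, ?_⟩
  · rw [map_neg, h.deg, neg_zero]
  · change (m : ℤ) * (-D) v = v.ord ((f : F)⁻¹)
    rw [Place.ord_inv, ← h.ord v, Finsupp.neg_apply, mul_neg]
  · apply Prod.ext
    · have := T.R₁.red_inv (x := ⟨f, f.2.1⟩) (by rw [h1]; exact one_ne_zero)
      exact this.trans (by rw [h1, inv_one]; rfl)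
    · have := T.R₂.red_inv (x := ⟨f, f.2.2⟩) (by rw [h2]; exact one_ne_zero)
      exact this.trans (by rw [h2, inv_one]; rfl)

theorem IsOne.smul {T : TwoRed K F k Fb} {𝒩 : NodalData T} {m : ℕ} {D : Divisor K F} {f : T.O}
    (h : IsOne T m D f) {g : SemilinearAut K F} {φ : SemilinearAut k Fb} (hg : IsCompat 𝒩 g φ) :
    IsOne T m (g • D) ⟨g • (f : F), hg.mem f⟩ where
  deg := by rw [SemilinearAut.degree_smul, h.deg]
  ord := fun v => by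
    have h2 := SemilinearAut.ord_smul g (g⁻¹ • v) (f : F)
    rw [smul_inv_smul] at h2
    change (m : ℤ) * (g • D) v = v.ord (g • (f : F))
    rw [h2, SemilinearAut.divisor_smul_apply, h.ord]
  red := by
    rw [hg.red f, h.red]
    apply Prod.ext
    · exact smul_one φ
    · exact smul_one φ

end Fermat.Agent.SS
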